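import Fermat.Agent.M59.Top.Seams
import Fermat.Agent.TW.Top.MachineSeam2
import Fermat.Prelude.Def_GaloisRep_LocalConditions
import Fermat.Prelude.Def_GaloisRep_Flat

/-!
M59 / ENGINE, LEVEL 1 (helper9, chief architect; ruling #48).  Prefix `m59e_`.

`m59e_eng_of : m59e_Entry_stmt → m59e_G5_stmt → m59e_LowerQ_stmt → m59e_LowCore_stmt Peu →
    m59e_Core_stmt Peu → m59e_Exit0_stmt → m59t_Eng_stmt`, for ANY Galois-side predicate `Peu`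
("`ρ̄` is ordinary with a peu-ramifiée local basis at `p`", to be DEFINED by the owner of
[R_p-norm]; the wiring is parametric in it).

Machine vocabulary (`heckeAlgebra N 2 ↑S`, `GaloisRepAdic`, `twt_*` of the landed ONE MACHINE).
`S` is ONE finite set fixed once and for all: `p`, the bad primes of `W`, the primes of `N₁`.
No Hecke operator at a prime of `S` is ever used; at the very end the level is made divisible by
every prime of `S` (`s58o_oldLiftSeam`) and S58 (on main) brings it down to the conductor.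

* `m59e_Occ p W S M`  : some mod-`p` eigensystem of level `M` away from `S` has `T_ℓ ↦ a_ℓ(W)`.
* [ENTRY-W] `m59e_Entry_stmt` : `IsResiduallyModularOfLevel p M → m59e_Occ p W S M`.
* [G5]      `m59e_G5_stmt`    : `ρ_W = T_p(W) ⊗ 𝒪` with its local types (`m59e_IsTate`).
* [C+S38g]  `m59e_LowerQ_stmt`: `m59e_Occ … N`, `ρ̄` unramified at `q ∣ N`, `q ≠ p` ⟹
                                `m59e_Occ … (N / q)`.
* [LOW-core] `m59e_LowCore_stmt Peu` : the Galois-side core of box A (re-export of the twin of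
                                `s44_low_of`): `m59e_Occ … N`, `p ∣ N`, `Peu ρ̄ p` ⟹
                                `m59e_Occ … (N / p)`  (referees #5221/#5224/#5226).
* [CORE]    `m59e_Core_stmt Peu` : modularity lifting at a level that is MINIMAL for `m59e_Occ`
                                (engine v4: walk through `O`-points, cases (d0), (II), (III));
                                in case (II) it receives `¬ Peu ρ̄ p` (`v̄ ≠ 0`).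
* [EXIT-0]  `m59e_Exit0_stmt` : a characteristic-`0` eigensystem compatible with `ρ_W` gives
                                `W.IsModularModelOfLevel N'`, `N'` squarefree, divisible by `S`.
-/

set_option autoImplicit false

open Polynomial CuspForm IsLocalRing WeierstrassCurve Fermat.Agent.TW

namespace Fermat.Agent.M59

/-- `θ(T_ℓ) = a_ℓ(W)` (cast to `k`) for all primes `ℓ ∤ M`, `ℓ ∉ S`. -/
def m59e_IsWEig (W : WeierstrassCurve ℤ) {k : Type} [Field k] {M : ℕ} [NeZero M] {S : Finset ℕ}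
    (θ : heckeAlgebra M 2 (↑S : Set ℕ) →+* k) : Prop :=
  ∀ (ℓ : ℕ) (hℓ : ℓ.Prime) (hℓM : ¬ ℓ ∣ M) (hℓS : ℓ ∉ (↑S : Set ℕ)),
    θ (heckeAlgebra.T hℓ hℓM hℓS) = ((W.apOfModel ℓ : ℤ) : k)

/-- `S` contains `p` and every bad prime of `W`. -/
def m59e_IsBadSet (W : WeierstrassCurve ℤ) (p : ℕ) (S : Finset ℕ) : Prop :=
  p ∈ S ∧ ∀ ℓ : ℕ, ℓ.Prime → ¬ W.IsGoodPrimeFor ℓ → ℓ ∈ S

/-- the system `ℓ ↦ a_ℓ(W) mod p`, `ℓ ∉ S`, occurs at level `M`. -/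
def m59e_Occ (p : ℕ) (W : WeierstrassCurve ℤ) (S : Finset ℕ) (M : ℕ) : Prop :=
  ∃ (_ : NeZero M) (k : Type) (_ : Field k) (_ : CharP k p)
    (θ : heckeAlgebra M 2 (↑S : Set ℕ) →+* k), m59e_IsWEig W θ

/-- **[ENTRY-W]** (twin of `TW/Easy/Entry2.lean`, Frey-free, `ρ̄`-free). -/
def m59e_Entry_stmt : Prop :=
  ∀ (p : ℕ) [Fact p.Prime] (W : WeierstrassCurve ℤ) (M : ℕ) (S : Finset ℕ), 0 < M →
    m59e_IsBadSet W p S → (∀ ℓ : ℕ, ℓ.Prime → ℓ ∣ M → ℓ ∈ S) →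
    W.IsResiduallyModularOfLevel p M → m59e_Occ p W S M

/-- the package [G5]: what the engine uses of `ρ = T_p(W) ⊗ 𝒪`. -/
structure m59e_IsTate (p : ℕ) (W : WeierstrassCurve ℤ) {𝒪 : Type} [CommRing 𝒪] [IsLocalRing 𝒪]
    (ρ : GaloisRepAdic 𝒪) : Prop where
  /-- `det ρ` is the cyclotomic character -/
  det : ρ.DetIsCyclotomic p
  /-- unramified at the good primes `ℓ ≠ p` -/
  unram : ∀ ℓ : ℕ, ℓ.Prime → ℓ ≠ p → W.IsGoodPrimeFor ℓ → ρ.IsUnramifiedAt ℓ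
  /-- Eichler–Shimura for `W`: `charpoly ρ(Frob_ℓ) = X² - a_ℓ(W) X + ℓ` at the good `ℓ ≠ p` -/
  frob : ∀ ℓ : ℕ, ℓ.Prime → ℓ ≠ p → W.IsGoodPrimeFor ℓ →
    ∀ A : ValuationSubring twt_Qb, A.LiesOverPrime ℓ → ∀ σ : twt_G, A.IsFrobeniusAt σ ℓ →
      LinearMap.charpoly (ρ.ρ σ) = X ^ 2 - C (((W.apOfModel ℓ : ℤ) : 𝒪)) * X + C ((ℓ : 𝒪))
  /-- the same identity for the residual representation -/
  frobRes : ∀ ℓ : ℕ, ℓ.Prime → ℓ ≠ p → W.IsGoodPrimeFor ℓ →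
    ∀ A : ValuationSubring twt_Qb, A.LiesOverPrime ℓ → ∀ σ : twt_G, A.IsFrobeniusAt σ ℓ →
      LinearMap.charpoly (ρ.residual.ρ σ) =
        X ^ 2 - C (((W.apOfModel ℓ : ℤ) : ResidueField 𝒪)) * X + C ((ℓ : ResidueField 𝒪))
  /-- semistable at every `q ≠ p` -/
  unip : ∀ q : ℕ, q.Prime → q ≠ p → ρ.IsUnipotentOnInertiaAt q
  /-- good reduction at `p` ⟹ flat -/
  flat : W.IsGoodPrimeFor p → ρ.IsFlatAt p
  /-- bad (= multiplicative) reduction at `p` ⟹ ordinary -/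
  ord : ¬ W.IsGoodPrimeFor p → ρ.IsOrdinaryAt p
  /-- `ρ̄` absolutely irreducible -/
  irr : ρ.residual.IsAbsolutelyIrreducible
  /-- the Taylor–Wiles hypothesis (`p ∈ {3,5}`, `W` semistable, `W[p]` irreducible) -/
  tw : twt_TWHyp ρ.residual
  /-- the eigenvalues of `ρ̄` lie in the residue field -/
  split : ∀ σ : twt_G, ∃ α β : ResidueField 𝒪,
    LinearMap.charpoly (ρ.residual.ρ σ) = (X - C α) * (X - C β)
  /-- non-Eisenstein: for every finite `S` some good `ℓ ∉ S` has `a_ℓ(W) ≢ ℓ + 1` -/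
  nonEis : ∀ S : Finset ℕ, ∃ ℓ : ℕ, ℓ.Prime ∧ ℓ ∉ S ∧
    ((W.apOfModel ℓ : ℤ) : ResidueField 𝒪) ≠ (ℓ : ResidueField 𝒪) + 1

/-- **[G5]** `ρ_W` exists. -/
def m59e_G5_stmt : Prop :=
  ∀ (p : ℕ) [Fact p.Prime], p = 3 ∨ p = 5 → ∀ W : WeierstrassCurve ℤ, W.Δ ≠ 0 →
    W.IsSemistableModel → W.ModRepIsIrreducible p →
    ∃ (𝒪 : Type) (_ : CommRing 𝒪) (_ : IsDomain 𝒪) (_ : IsDiscreteValuationRing 𝒪)
      (_ : IsAdicComplete (maximalIdeal 𝒪) 𝒪) (_ : Finite (ResidueField 𝒪)) (_ : CharZero 𝒪)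
      (ρ : GaloisRepAdic 𝒪), (p : 𝒪) ∈ maximalIdeal 𝒪 ∧ m59e_IsTate p W ρ

/-- the type of a Galois-side predicate "`ρ̄` is ordinary at `p` with a peu-ramifiée local basis"
(`v̄ = 0` in the normalised frame of [R_p-norm]; `s44_IsLocBasis` in S44's vocabulary). -/
abbrev m59e_PeuPred : Type 1 := ∀ (k : Type) [Field k], ResidualGaloisRep k → ℕ → Prop

/-- **[C + S38g]** Ribet's lowering at `q ≠ p`, machine vocabulary, GALOIS-side hypothesis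
"`ρ̄` unramified at `q`" (Mazur's principle at the non-hard `q`, the landed machine with `Smin`
arbitrary at the hard `q`; at `p ∥ N` its strict-ordinary twin). -/
def m59e_LowerQ_stmt : Prop :=
  ∀ (p : ℕ) [Fact p.Prime], p = 3 ∨ p = 5 → ∀ W : WeierstrassCurve ℤ, W.Δ ≠ 0 →
    W.IsSemistableModel →
  ∀ (𝒪 : Type) [CommRing 𝒪] [IsDomain 𝒪] [IsDiscreteValuationRing 𝒪]
    [IsAdicComplete (maximalIdeal 𝒪) 𝒪] [Finite (ResidueField 𝒪)] [CharZero 𝒪],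
    (p : 𝒪) ∈ maximalIdeal 𝒪 →
  ∀ ρ : GaloisRepAdic 𝒪, m59e_IsTate p W ρ →
  ∀ (S : Finset ℕ) (N q : ℕ), m59e_IsBadSet W p S → 2 ∈ S → Squarefree N →
    (∀ ℓ : ℕ, ℓ.Prime → ℓ ∣ N → ℓ ∈ S) → q.Prime → q ≠ p → q ∣ N →
    (W.IsGoodPrimeFor p → ¬ p ∣ N) →
    ρ.residual.IsUnramifiedAt q → m59e_Occ p W S N → m59e_Occ p W S (N / q)

/-- **[LOW-core]** the Galois-side core of Mazur–Ribet at `p` (box A without its Δ-side cells):
a peu-ramifiée local basis of `ρ̄` at `p ∥ N` lowers the level to `N / p`.  (Refereed at EVEN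
squarefree level; for odd `N` the detour `N → 2N → 2N/p → N/p` through `m59e_LowerQ_stmt` at
`q = 2` is done inside this box, helper12 #5226.) -/
def m59e_LowCore_stmt (Peu : m59e_PeuPred) : Prop :=
  ∀ (p : ℕ) [Fact p.Prime], p = 3 ∨ p = 5 → ∀ W : WeierstrassCurve ℤ, W.Δ ≠ 0 →
    W.IsSemistableModel →
  ∀ (𝒪 : Type) [CommRing 𝒪] [IsDomain 𝒪] [IsDiscreteValuationRing 𝒪]
    [IsAdicComplete (maximalIdeal 𝒪) 𝒪] [Finite (ResidueField 𝒪)] [CharZero 𝒪],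
    (p : 𝒪) ∈ maximalIdeal 𝒪 →
  ∀ ρ : GaloisRepAdic 𝒪, m59e_IsTate p W ρ →
  ∀ (S : Finset ℕ) (N : ℕ), m59e_IsBadSet W p S → 2 ∈ S → Squarefree N →
    (∀ ℓ : ℕ, ℓ.Prime → ℓ ∣ N → ℓ ∈ S) → p ∣ N →
    Peu (ResidueField 𝒪) ρ.residual p → m59e_Occ p W S N → m59e_Occ p W S (N / p)

/-- **[CORE]** modularity lifting at a level `N₁` that is minimal for `m59e_Occ`. -/
def m59e_Core_stmt (Peu : m59e_PeuPred) : Prop :=
  ∀ (p : ℕ) [Fact p.Prime], p = 3 ∨ p = 5 → ∀ W : WeierstrassCurve ℤ, W.Δ ≠ 0 →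
    W.IsSemistableModel →
  ∀ (𝒪 : Type) [CommRing 𝒪] [IsDomain 𝒪] [IsDiscreteValuationRing 𝒪]
    [IsAdicComplete (maximalIdeal 𝒪) 𝒪] [Finite (ResidueField 𝒪)] [CharZero 𝒪],
    (p : 𝒪) ∈ maximalIdeal 𝒪 →
  ∀ ρ : GaloisRepAdic 𝒪, m59e_IsTate p W ρ →
  ∀ (S : Finset ℕ) (N₁ : ℕ), m59e_IsBadSet W p S → Squarefree N₁ →
    (∀ ℓ : ℕ, ℓ.Prime → ℓ ∣ N₁ → ℓ ∈ S) →
    m59e_Occ p W S N₁ →
    -- `N₁` is the conductor of `ρ̄` away from `p`
    (∀ q : ℕ, q.Prime → q ≠ p → q ∣ N₁ → ¬ ρ.residual.IsUnramifiedAt q) →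
    -- case (II): `p ∣ N₁` only if nothing occurs at level `N₁ / p` (every form is `p`-new) …
    (p ∣ N₁ → ¬ m59e_Occ p W S (N₁ / p)) →
    -- … and then `ρ̄` is NOT peu ramifiée at `p` (`v̄ ≠ 0`: the local ring at `p` is smooth)
    (p ∣ N₁ → ¬ Peu (ResidueField 𝒪) ρ.residual p) →
    -- case (d0): good reduction at `p` ⟹ `p ∤ N₁`
    (W.IsGoodPrimeFor p → ¬ p ∣ N₁) →
    -- the crew may ENLARGE `S` (rigidifier at `p = 3`, auxiliary primes): `S ⊆ S'`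
    ∃ (S' : Finset ℕ) (N : ℕ) (_ : NeZero N) (χ : heckeAlgebra N 2 (↑S' : Set ℕ) →+* 𝒪),
      S ⊆ S' ∧ Squarefree N ∧ (∀ ℓ : ℕ, ℓ.Prime → ℓ ∣ N → ℓ ∈ S') ∧ twt_CompatAdic χ ρ

/-- **[EXIT-0]** from a characteristic-`0` eigensystem to the Prelude vocabulary, at a squarefree
level divisible by every prime of `S` (`s58o_oldLiftSeam`). -/
def m59e_Exit0_stmt : Prop :=
  ∀ (p : ℕ) [Fact p.Prime] (W : WeierstrassCurve ℤ), W.Δ ≠ 0 →
  ∀ (𝒪 : Type) [CommRing 𝒪] [IsDomain 𝒪] [IsDiscreteValuationRing 𝒪] [CharZero 𝒪]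
    (ρ : GaloisRepAdic 𝒪), m59e_IsTate p W ρ →
  ∀ (S : Finset ℕ) (N : ℕ) [NeZero N], m59e_IsBadSet W p S → Squarefree N →
    (∀ ℓ : ℕ, ℓ.Prime → ℓ ∣ N → ℓ ∈ S) →
  ∀ χ : heckeAlgebra N 2 (↑S : Set ℕ) →+* 𝒪, twt_CompatAdic χ ρ →
    ∃ N' : ℕ, Squarefree N' ∧ (∀ ℓ ∈ S, ℓ.Prime → ℓ ∣ N') ∧ W.IsModularModelOfLevel N'

/-- good reduction at `p` ⟹ `p ∣ ord_p Δ` (`= 0`). -/
theorem m59e_flat_of_good (W : WeierstrassCurve ℤ) (p : ℕ) [Fact p.Prime]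
    (h : W.IsGoodPrimeFor p) : m59t_flat W p p := by
  unfold m59t_flat WeierstrassCurve.IsPeuRamifieeAt
  have h1 : (W.map (Int.castRingHom ℚ)).Δ = ((W.Δ : ℤ) : ℚ) := by
    rw [WeierstrassCurve.map_Δ]; rfl
  rw [h1, padicValRat.of_int]
  have h0 : padicValInt p W.Δ = 0 := padicValInt.eq_zero_of_not_dvd h
  rw [h0]
  exact dvd_zero _

/-- a minimal level for `m59e_Occ` below `M`. -/
theorem m59e_min (R : ℕ → Prop) (M : ℕ) (hsq : Squarefree M) (hR : R M) :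
    ∃ N : ℕ, N ∣ M ∧ Squarefree N ∧ R N ∧ ∀ q : ℕ, q.Prime → q ∣ N → ¬ R (N / q) :=
  m59t_comb_min R M hsq hR

/-- **ENGINE from its five level-1 boxes.** -/
theorem m59e_eng_of (Peu : m59e_PeuPred) (hEn : m59e_Entry_stmt) (hG : m59e_G5_stmt)
    (hL : m59e_LowerQ_stmt) (hLC : m59e_LowCore_stmt Peu) (hC : m59e_Core_stmt Peu)
    (hX : m59e_Exit0_stmt) : m59t_Eng_stmt := by
  intro p hp W hΔ hW hirr N₁ hsq hpN hR
  have hpp : p.Prime := by rcases hp with rfl | rfl <;> norm_num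
  have : Fact p.Prime := ⟨hpp⟩
  obtain ⟨𝒪, _, _, _, _, _, _, ρ, hp𝒪, hT⟩ := hG p hp W hΔ hW hirr
  -- the finite set `S`
  let S : Finset ℕ := insert p (insert 2 (W.Δ.natAbs.primeFactors ∪ N₁.primeFactors))
  have hN₁pos : 0 < N₁ := Nat.pos_of_ne_zero hsq.ne_zero
  have hS : m59e_IsBadSet W p S := by
    refine ⟨Finset.mem_insert_self _ _, fun ℓ hℓ hbad => ?_⟩
    refine Finset.mem_insert_of_mem (Finset.mem_insert_of_mem (Finset.mem_union_left _ ?_))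
    rw [Nat.mem_primeFactors]
    refine ⟨hℓ, ?_, Int.natAbs_ne_zero.mpr hΔ⟩
    have : (ℓ : ℤ) ∣ W.Δ := not_not.mp hbad
    exact Int.natCast_dvd.mp this
  have hSN : ∀ M : ℕ, M ∣ N₁ → ∀ ℓ : ℕ, ℓ.Prime → ℓ ∣ M → ℓ ∈ S := by
    intro M hM ℓ hℓ hℓM
    refine Finset.mem_insert_of_mem (Finset.mem_insert_of_mem (Finset.mem_union_right _ ?_))
    rw [Nat.mem_primeFactors]
    exact ⟨hℓ, dvd_trans hℓM hM, hN₁pos.ne'⟩
  have h2S : 2 ∈ S := Finset.mem_insert_of_mem (Finset.mem_insert_self _ _)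
  -- ENTRY
  have hOcc : m59e_Occ p W S N₁ := hEn p W N₁ S hN₁pos hS (hSN N₁ dvd_rfl) hR
  -- a minimal level
  obtain ⟨N', hN'd, hN'sq, hOcc', hmin⟩ := m59e_min (m59e_Occ p W S) N₁ hsq hOcc
  have hgood : W.IsGoodPrimeFor p → ¬ p ∣ N' := fun hg hpN' =>
    hpN (dvd_trans hpN' hN'd) (m59e_flat_of_good W p hg)
  -- minimality + [C] ⟹ ramified
  have hram : ∀ q : ℕ, q.Prime → q ≠ p → q ∣ N' → ¬ ρ.residual.IsUnramifiedAt q :=
    fun q hq hqp hqN' hunr =>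
      hmin q hq hqN' (hL p hp W hΔ hW 𝒪 hp𝒪 ρ hT S N' q hS h2S hN'sq (hSN N' hN'd) hq hqp hqN' hgood
        hunr hOcc')
  -- CORE
  -- minimality + [LOW-core] ⟹ not peu ramifiée at p
  have hpeu : p ∣ N' → ¬ Peu (ResidueField 𝒪) ρ.residual p := fun hpN' hP =>
    hmin p hpp hpN' (hLC p hp W hΔ hW 𝒪 hp𝒪 ρ hT S N' hS h2S hN'sq (hSN N' hN'd) hpN' hP hOcc')
  obtain ⟨S', N, _, χ, hSS', hNsq, hNS, hχ⟩ := hC p hp W hΔ hW 𝒪 hp𝒪 ρ hT S N' hS hN'sq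
    (hSN N' hN'd) hOcc' hram (fun hpN' => hmin p hpp hpN') hpeu hgood
  have hS' : m59e_IsBadSet W p S' := ⟨hSS' hS.1, fun ℓ hℓ hb => hSS' (hS.2 ℓ hℓ hb)⟩
  -- EXIT
  obtain ⟨N'', hN''sq, hN''S, hmod⟩ := hX p W hΔ 𝒪 ρ hT S' N hS' hNsq hNS χ hχ
  refine ⟨N'', hmod, ?_, ?_, ?_⟩
  · intro h
    exact hpp.one_lt.ne' (Nat.isUnit_iff.mp (hN''sq p (by rwa [← pow_two])))
  · intro ℓ hℓ hℓΔ
    exact hN''S ℓ (hS'.2 ℓ hℓ (not_not.mpr hℓΔ)) hℓ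
  · intro q hq h
    have h2 : q * q ∣ N'' := dvd_trans (by rw [← pow_two]; exact pow_dvd_pow q (by norm_num)) h
    exact hq.one_lt.ne' (Nat.isUnit_iff.mp (hN''sq q h2))

end Fermat.Agent.M59
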