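import Fermat.Agent.M59.Top.EngSeams

/-!
M59 / ENGINE, LEVEL 1, ISSUE 2 (helper9, chief architect; referees #5361 / #5365).  Prefix `m59e_`.

COEFFICIENT-RING REPAIR, add-only (`M59/Top/EngSeams.lean` is untouched, every file that imports it
stays green).  The TW-level cells of [CORE] (`m59lg_tw_level`, the diamond eigenvalue `ζ`) need a
primitive `p`-th root of unity IN THE COEFFICIENT RING `𝒪` of `ρ_W`; the ring is chosen by [G5],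
so [G5] exports `ζ` and [CORE] receives it:

* `m59e_G5z_stmt`       = `m59e_G5_stmt` with `∃ ζ : 𝒪, IsPrimitiveRoot ζ p` added to the conclusion
                          (the SAME Prop as helper29's `m59g_G5z_stmt`, M59/G5/Seams2.lean);
* `m59e_CoreZ_stmt Peu` = `m59e_Core_stmt Peu` with the extra HYPOTHESIS
                          `(∃ ζ : 𝒪, IsPrimitiveRoot ζ p) →` right after `(p : 𝒪) ∈ maximalIdeal 𝒪 →`;
* `m59e_engZ_of : m59e_Entry_stmt → m59e_G5z_stmt → m59e_LowerQ_stmt → m59e_LowCore_stmt Peu →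
    m59e_CoreZ_stmt Peu → m59e_Exit0_stmt → m59t_Eng_stmt`   (PROVED; THE engine wiring from now on).

`m59e_LowerQ_stmt`, `m59e_LowCore_stmt`, `m59e_Exit0_stmt`, `m59e_Entry_stmt` are unchanged (their
machines choose their own rings or use none).
-/

set_option autoImplicit false

open Polynomial CuspForm IsLocalRing WeierstrassCurve Fermat.Agent.TW

namespace Fermat.Agent.M59

/-- **[G5], issue 2**: `ρ_W` exists over a coefficient ring containing a primitive `p`-th root of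
unity. -/
def m59e_G5z_stmt : Prop :=
  ∀ (p : ℕ) [Fact p.Prime], p = 3 ∨ p = 5 → ∀ W : WeierstrassCurve ℤ, W.Δ ≠ 0 →
    W.IsSemistableModel → W.ModRepIsIrreducible p →
    ∃ (𝒪 : Type) (_ : CommRing 𝒪) (_ : IsDomain 𝒪) (_ : IsDiscreteValuationRing 𝒪)
      (_ : IsAdicComplete (maximalIdeal 𝒪) 𝒪) (_ : Finite (ResidueField 𝒪)) (_ : CharZero 𝒪)
      (ρ : GaloisRepAdic 𝒪), (p : 𝒪) ∈ maximalIdeal 𝒪 ∧ (∃ ζ : 𝒪, IsPrimitiveRoot ζ p) ∧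
        m59e_IsTate p W ρ

theorem m59e_G5_of_G5z (h : m59e_G5z_stmt) : m59e_G5_stmt := by
  intro p _ hp35 W hΔ hss hirr
  obtain ⟨𝒪, i1, i2, i3, i4, i5, i6, ρ, hp, -, hT⟩ := h p hp35 W hΔ hss hirr
  exact ⟨𝒪, i1, i2, i3, i4, i5, i6, ρ, hp, hT⟩

/-- **[CORE], issue 2**: modularity lifting at a level `N₁` that is minimal for `m59e_Occ`, over a
coefficient ring containing a primitive `p`-th root of unity. -/
def m59e_CoreZ_stmt (Peu : m59e_PeuPred) : Prop :=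
  ∀ (p : ℕ) [Fact p.Prime], p = 3 ∨ p = 5 → ∀ W : WeierstrassCurve ℤ, W.Δ ≠ 0 →
    W.IsSemistableModel →
  ∀ (𝒪 : Type) [CommRing 𝒪] [IsDomain 𝒪] [IsDiscreteValuationRing 𝒪]
    [IsAdicComplete (maximalIdeal 𝒪) 𝒪] [Finite (ResidueField 𝒪)] [CharZero 𝒪],
    (p : 𝒪) ∈ maximalIdeal 𝒪 → (∃ ζ : 𝒪, IsPrimitiveRoot ζ p) →
  ∀ ρ : GaloisRepAdic 𝒪, m59e_IsTate p W ρ →
  ∀ (S : Finset ℕ) (N₁ : ℕ), m59e_IsBadSet W p S → Squarefree N₁ →
    (∀ ℓ : ℕ, ℓ.Prime → ℓ ∣ N₁ → ℓ ∈ S) →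
    m59e_Occ p W S N₁ →
    -- `N₁` is the conductor of `ρ̄` away from `p`
    (∀ q : ℕ, q.Prime → q ≠ p → q ∣ N₁ → ¬ ρ.residual.IsUnramifiedAt q) →
    -- case (II): `p ∣ N₁` only if nothing occurs at level `N₁ / p` (every form is `p`-new) …
    (p ∣ N₁ → ¬ m59e_Occ p W S (N₁ / p)) →
    -- … and then `ρ̄` is NOT peu ramifiée at `p` (`v̄ ≠ 0`: the local ring at `p` is smooth)
    (p ∣ N₁ → ¬ Peu (ResidueField 𝒪) ρ.residual p) →
    -- case (d0): good reduction at `p` ⟹ `p ∤ N₁`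
    (W.IsGoodPrimeFor p → ¬ p ∣ N₁) →
    -- the crew may ENLARGE `S` (rigidifier at `p = 3`, auxiliary primes): `S ⊆ S'`
    ∃ (S' : Finset ℕ) (N : ℕ) (_ : NeZero N) (χ : heckeAlgebra N 2 (↑S' : Set ℕ) →+* 𝒪),
      S ⊆ S' ∧ Squarefree N ∧ (∀ ℓ : ℕ, ℓ.Prime → ℓ ∣ N → ℓ ∈ S') ∧ twt_CompatAdic χ ρ

/-- the old seam is stronger. -/
theorem m59e_coreZ_of_core (Peu : m59e_PeuPred) (h : m59e_Core_stmt Peu) :
    m59e_CoreZ_stmt Peu := by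
  intro p _ hp W hΔ hW 𝒪 _ _ _ _ _ _ hp𝒪 _ ρ hT S N₁ hS hsq hSN hOcc hram hII hpeu hgood
  exact h p hp W hΔ hW 𝒪 hp𝒪 ρ hT S N₁ hS hsq hSN hOcc hram hII hpeu hgood

/-- **ENGINE from its level-1 boxes, issue 2** (`ζ` threaded from [G5] to [CORE]). -/
theorem m59e_engZ_of (Peu : m59e_PeuPred) (hEn : m59e_Entry_stmt) (hG : m59e_G5z_stmt)
    (hL : m59e_LowerQ_stmt) (hLC : m59e_LowCore_stmt Peu) (hC : m59e_CoreZ_stmt Peu)
    (hX : m59e_Exit0_stmt) : m59t_Eng_stmt := by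
  intro p hp W hΔ hW hirr N₁ hsq hpN hR
  have hpp : p.Prime := by rcases hp with rfl | rfl <;> norm_num
  have : Fact p.Prime := ⟨hpp⟩
  obtain ⟨𝒪, _, _, _, _, _, _, ρ, hp𝒪, hζ, hT⟩ := hG p hp W hΔ hW hirr
  -- the finite set `S`
  let S : Finset ℕ := insert p (insert 2 (W.Δ.natAbs.primeFactors ∪ N₁.primeFactors))
  have hN₁pos : 0 < N₁ := Nat.pos_of_ne_zero hsq.ne_zero
  have hS : m59e_IsBadSet W p S := by
    refine ⟨Finset.mem_insert_self _ _, fun ℓ hℓ hbad => ?_⟩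
    refine Finset.mem_insert_of_mem (Finset.mem_insert_of_mem (Finset.mem_union_left _ ?_))
    rw [Nat.mem_primeFactors]
    refine ⟨hℓ, ?_, Int.natAbs_ne_zero.mpr hΔ⟩
    have : (ℓ : ℤ) ∣ W.Δ := not_not.mp hbad
    exact Int.natCast_dvd.mp this
  have hSN : ∀ M : ℕ, M ∣ N₁ → ∀ ℓ : ℕ, ℓ.Prime → ℓ ∣ M → ℓ ∈ S := by
    intro M hM ℓ hℓ hℓM
    refine Finset.mem_insert_of_mem (Finset.mem_insert_of_mem (Finset.mem_union_right _ ?_))
    rw [Nat.mem_primeFactors]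
    exact ⟨hℓ, dvd_trans hℓM hM, hN₁pos.ne'⟩
  have h2S : 2 ∈ S := Finset.mem_insert_of_mem (Finset.mem_insert_self _ _)
  -- ENTRY
  have hOcc : m59e_Occ p W S N₁ := hEn p W N₁ S hN₁pos hS (hSN N₁ dvd_rfl) hR
  -- a minimal level
  obtain ⟨N', hN'd, hN'sq, hOcc', hmin⟩ := m59e_min (m59e_Occ p W S) N₁ hsq hOcc
  have hgood : W.IsGoodPrimeFor p → ¬ p ∣ N' := fun hg hpN' =>
    hpN (dvd_trans hpN' hN'd) (m59e_flat_of_good W p hg)
  -- minimality + [C] ⟹ ramified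
  have hram : ∀ q : ℕ, q.Prime → q ≠ p → q ∣ N' → ¬ ρ.residual.IsUnramifiedAt q :=
    fun q hq hqp hqN' hunr =>
      hmin q hq hqN' (hL p hp W hΔ hW 𝒪 hp𝒪 ρ hT S N' q hS h2S hN'sq (hSN N' hN'd) hq hqp hqN' hgood
        hunr hOcc')
  -- minimality + [LOW-core] ⟹ not peu ramifiée at p
  have hpeu : p ∣ N' → ¬ Peu (ResidueField 𝒪) ρ.residual p := fun hpN' hP =>
    hmin p hpp hpN' (hLC p hp W hΔ hW 𝒪 hp𝒪 ρ hT S N' hS h2S hN'sq (hSN N' hN'd) hpN' hP hOcc')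
  -- CORE
  obtain ⟨S', N, _, χ, hSS', hNsq, hNS, hχ⟩ := hC p hp W hΔ hW 𝒪 hp𝒪 hζ ρ hT S N' hS hN'sq
    (hSN N' hN'd) hOcc' hram (fun hpN' => hmin p hpp hpN') hpeu hgood
  have hS' : m59e_IsBadSet W p S' := ⟨hSS' hS.1, fun ℓ hℓ hb => hSS' (hS.2 ℓ hℓ hb)⟩
  -- EXIT
  obtain ⟨N'', hN''sq, hN''S, hmod⟩ := hX p W hΔ 𝒪 ρ hT S' N hS' hNsq hNS χ hχ
  refine ⟨N'', hmod, ?_, ?_, ?_⟩
  · intro h
    exact hpp.one_lt.ne' (Nat.isUnit_iff.mp (hN''sq p (by rwa [← pow_two])))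
  · intro ℓ hℓ hℓΔ
    exact hN''S ℓ (hS'.2 ℓ hℓ (not_not.mpr hℓΔ)) hℓ
  · intro q hq h
    have h2 : q * q ∣ N'' := dvd_trans (by rw [← pow_two]; exact pow_dvd_pow q (by norm_num)) h
    exact hq.one_lt.ne' (Nat.isUnit_iff.mp (hN''sq q h2))

end Fermat.Agent.M59
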