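import Fermat.Agent.M59.Top.Chain.Seams
import Fermat.Prelude.Def_GaloisRep_StrictOrdinary

/-!
M59 / ENGINE + [CORE], ISSUE 3 (helper9, chief architect; ruling #5704 on helper13's flag #5674).
Prefix `m59e_` / `m59d_` / `m59ci_`, suffix `S` ("strict").

ADD-ONLY REPAIR of case (III) (`M59/Top/EngSeams.lean`, `EngZ.lean`, `CoreOfZ.lean`,
`Chain/Seams.lean` are untouched, every file that imports them stays green).

`m59e_IsTate.ord` only says `¬ good → ρ.IsOrdinaryAt p`; case (III) of [CHAIN-inst] needs the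
unramified quotient character of `ρ_W` at `p` to be `±1` EXACTLY ((O3): `a_W = 0` in the coordinates
of [R_p-norm]), i.e. `ρ.IsStrictOrdinaryAt p`.  [G5] can export it (the decomposition group acts on
`T_p W / L` through the character "`σ` fixes / swaps the two tangent slopes of the node":
`M59/G5/OrdQ`, chord + tangent lemmas), so it is threaded as a PARALLEL hypothesis

  `(¬ W.IsGoodPrimeFor p → ρ.IsStrictOrdinaryAt p)`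

from [G5] to case (III):

* `m59e_G5zS_stmt`            = `m59e_G5z_stmt` with that conjunct added to the conclusion;
* `m59e_CoreZS_stmt Peu`      = `m59e_CoreZ_stmt Peu` with that extra hypothesis after `IsTate`;
* `m59d_ChainInputZS_stmt Peu`= `m59d_ChainInputZ_stmt Peu` with that extra hypothesis;
* `m59ci_CaseIIIS_stmt Peu`   = `m59ci_CaseIII_stmt Peu` with `ρ.IsStrictOrdinaryAt p →` after `IsTate`;
* `m59e_engZS_of`, `m59e_coreZS_of`, `m59ci_chainInputS_of` : the three wirings (PROVED; copies).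

Cases (d0), (II) (`m59ci_Level_stmt`) are unchanged.
-/

set_option autoImplicit false
set_option linter.style.haveILetI false
set_option linter.unusedSectionVars false
set_option linter.unusedVariables false

open Polynomial CuspForm IsLocalRing WeierstrassCurve Fermat.Agent.TW

namespace Fermat.Agent.M59

/-- **[G5], issue 3**: `ρ_W` over a coefficient ring with `ζ_p`, strictly ordinary at `p` if `W` is
bad at `p`. -/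
def m59e_G5zS_stmt : Prop :=
  ∀ (p : ℕ) [Fact p.Prime], p = 3 ∨ p = 5 → ∀ W : WeierstrassCurve ℤ, W.Δ ≠ 0 →
    W.IsSemistableModel → W.ModRepIsIrreducible p →
    ∃ (𝒪 : Type) (_ : CommRing 𝒪) (_ : IsDomain 𝒪) (_ : IsDiscreteValuationRing 𝒪)
      (_ : IsAdicComplete (maximalIdeal 𝒪) 𝒪) (_ : Finite (ResidueField 𝒪)) (_ : CharZero 𝒪)
      (ρ : GaloisRepAdic 𝒪), (p : 𝒪) ∈ maximalIdeal 𝒪 ∧ (∃ ζ : 𝒪, IsPrimitiveRoot ζ p) ∧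
        m59e_IsTate p W ρ ∧ (¬ W.IsGoodPrimeFor p → ρ.IsStrictOrdinaryAt p)

theorem m59e_G5z_of_G5zS (h : m59e_G5zS_stmt) : m59e_G5z_stmt := by
  intro p _ hp35 W hΔ hss hirr
  obtain ⟨𝒪, i1, i2, i3, i4, i5, i6, ρ, hp, hζ, hT, -⟩ := h p hp35 W hΔ hss hirr
  exact ⟨𝒪, i1, i2, i3, i4, i5, i6, ρ, hp, hζ, hT⟩

/-- **[CORE], issue 3**: `m59e_CoreZ_stmt` with the strictness of `ρ_W` at a bad `p` as a
hypothesis. -/
def m59e_CoreZS_stmt (Peu : m59e_PeuPred) : Prop :=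
  ∀ (p : ℕ) [Fact p.Prime], p = 3 ∨ p = 5 → ∀ W : WeierstrassCurve ℤ, W.Δ ≠ 0 →
    W.IsSemistableModel →
  ∀ (𝒪 : Type) [CommRing 𝒪] [IsDomain 𝒪] [IsDiscreteValuationRing 𝒪]
    [IsAdicComplete (maximalIdeal 𝒪) 𝒪] [Finite (ResidueField 𝒪)] [CharZero 𝒪],
    (p : 𝒪) ∈ maximalIdeal 𝒪 → (∃ ζ : 𝒪, IsPrimitiveRoot ζ p) →
  ∀ ρ : GaloisRepAdic 𝒪, m59e_IsTate p W ρ →
    (¬ W.IsGoodPrimeFor p → ρ.IsStrictOrdinaryAt p) →
  ∀ (S : Finset ℕ) (N₁ : ℕ), m59e_IsBadSet W p S → Squarefree N₁ →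
    (∀ ℓ : ℕ, ℓ.Prime → ℓ ∣ N₁ → ℓ ∈ S) →
    m59e_Occ p W S N₁ →
    (∀ q : ℕ, q.Prime → q ≠ p → q ∣ N₁ → ¬ ρ.residual.IsUnramifiedAt q) →
    (p ∣ N₁ → ¬ m59e_Occ p W S (N₁ / p)) →
    (p ∣ N₁ → ¬ Peu (ResidueField 𝒪) ρ.residual p) →
    (W.IsGoodPrimeFor p → ¬ p ∣ N₁) →
    ∃ (S' : Finset ℕ) (N : ℕ) (_ : NeZero N) (χ : heckeAlgebra N 2 (↑S' : Set ℕ) →+* 𝒪),
      S ⊆ S' ∧ Squarefree N ∧ (∀ ℓ : ℕ, ℓ.Prime → ℓ ∣ N → ℓ ∈ S') ∧ twt_CompatAdic χ ρ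

/-- the old seam is stronger. -/
theorem m59e_coreZS_of_coreZ (Peu : m59e_PeuPred) (h : m59e_CoreZ_stmt Peu) :
    m59e_CoreZS_stmt Peu := by
  intro p _ hp W hΔ hW 𝒪 _ _ _ _ _ _ hp𝒪 hζ ρ hT _ S N₁ hS hsq hSN hOcc hram hII hpeu hgood
  exact h p hp W hΔ hW 𝒪 hp𝒪 hζ ρ hT S N₁ hS hsq hSN hOcc hram hII hpeu hgood

/-- **ENGINE from its level-1 boxes, issue 3** (`ζ` and the strictness at `p` threaded from [G5] to
[CORE]). -/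
theorem m59e_engZS_of (Peu : m59e_PeuPred) (hEn : m59e_Entry_stmt) (hG : m59e_G5zS_stmt)
    (hL : m59e_LowerQ_stmt) (hLC : m59e_LowCore_stmt Peu) (hC : m59e_CoreZS_stmt Peu)
    (hX : m59e_Exit0_stmt) : m59t_Eng_stmt := by
  intro p hp W hΔ hW hirr N₁ hsq hpN hR
  have hpp : p.Prime := by rcases hp with rfl | rfl <;> norm_num
  have : Fact p.Prime := ⟨hpp⟩
  obtain ⟨𝒪, _, _, _, _, _, _, ρ, hp𝒪, hζ, hT, hSO⟩ := hG p hp W hΔ hW hirr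
  -- the finite set `S`
  let S : Finset ℕ := insert p (insert 2 (W.Δ.natAbs.primeFactors ∪ N₁.primeFactors))
  have hN₁pos : 0 < N₁ := Nat.pos_of_ne_zero hsq.ne_zero
  have hS : m59e_IsBadSet W p S := by
    refine ⟨Finset.mem_insert_self _ _, fun ℓ hℓ hbad => ?_⟩
    refine Finset.mem_insert_of_mem (Finset.mem_insert_of_mem (Finset.mem_union_left _ ?_))
    rw [Nat.mem_primeFactors]
    refine ⟨hℓ, ?_, Int.natAbs_ne_zero.mpr hΔ⟩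
    have : (ℓ : ℤ) ∣ W.Δ := not_not.mp hbad
    exact Int.natCast_dvd.mp this
  have hSN : ∀ M : ℕ, M ∣ N₁ → ∀ ℓ : ℕ, ℓ.Prime → ℓ ∣ M → ℓ ∈ S := by
    intro M hM ℓ hℓ hℓM
    refine Finset.mem_insert_of_mem (Finset.mem_insert_of_mem (Finset.mem_union_right _ ?_))
    rw [Nat.mem_primeFactors]
    exact ⟨hℓ, dvd_trans hℓM hM, hN₁pos.ne'⟩
  have h2S : 2 ∈ S := Finset.mem_insert_of_mem (Finset.mem_insert_self _ _)
  -- ENTRY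
  have hOcc : m59e_Occ p W S N₁ := hEn p W N₁ S hN₁pos hS (hSN N₁ dvd_rfl) hR
  -- a minimal level
  obtain ⟨N', hN'd, hN'sq, hOcc', hmin⟩ := m59e_min (m59e_Occ p W S) N₁ hsq hOcc
  have hgood : W.IsGoodPrimeFor p → ¬ p ∣ N' := fun hg hpN' =>
    hpN (dvd_trans hpN' hN'd) (m59e_flat_of_good W p hg)
  -- minimality + [C] ⟹ ramified
  have hram : ∀ q : ℕ, q.Prime → q ≠ p → q ∣ N' → ¬ ρ.residual.IsUnramifiedAt q :=
    fun q hq hqp hqN' hunr =>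
      hmin q hq hqN' (hL p hp W hΔ hW 𝒪 hp𝒪 ρ hT S N' q hS h2S hN'sq (hSN N' hN'd) hq hqp hqN' hgood
        hunr hOcc')
  -- minimality + [LOW-core] ⟹ not peu ramifiée at p
  have hpeu : p ∣ N' → ¬ Peu (ResidueField 𝒪) ρ.residual p := fun hpN' hP =>
    hmin p hpp hpN' (hLC p hp W hΔ hW 𝒪 hp𝒪 ρ hT S N' hS h2S hN'sq (hSN N' hN'd) hpN' hP hOcc')
  -- CORE
  obtain ⟨S', N, _, χ, hSS', hNsq, hNS, hχ⟩ := hC p hp W hΔ hW 𝒪 hp𝒪 hζ ρ hT hSO S N' hS hN'sq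
    (hSN N' hN'd) hOcc' hram (fun hpN' => hmin p hpp hpN') hpeu hgood
  have hS' : m59e_IsBadSet W p S' := ⟨hSS' hS.1, fun ℓ hℓ hb => hSS' (hS.2 ℓ hℓ hb)⟩
  -- EXIT
  obtain ⟨N'', hN''sq, hN''S, hmod⟩ := hX p W hΔ 𝒪 ρ hT S' N hS' hNsq hNS χ hχ
  refine ⟨N'', hmod, ?_, ?_, ?_⟩
  · intro h
    exact hpp.one_lt.ne' (Nat.isUnit_iff.mp (hN''sq p (by rwa [← pow_two])))
  · intro ℓ hℓ hℓΔ
    exact hN''S ℓ (hS'.2 ℓ hℓ (not_not.mpr hℓΔ)) hℓ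
  · intro q hq h
    have h2 : q * q ∣ N'' := dvd_trans (by rw [← pow_two]; exact pow_dvd_pow q (by norm_num)) h
    exact hq.one_lt.ne' (Nat.isUnit_iff.mp (hN''sq q h2))

/-- **[CHAIN-INPUT], issue 3**: with the strictness of `ρ_W` at a bad `p` as a hypothesis. -/
def m59d_ChainInputZS_stmt (Peu : m59e_PeuPred) : Prop :=
  ∀ (p : ℕ) [Fact p.Prime], p = 3 ∨ p = 5 → ∀ W : WeierstrassCurve ℤ, W.Δ ≠ 0 →
    W.IsSemistableModel →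
  ∀ (𝒪 : Type) [CommRing 𝒪] [IsDomain 𝒪] [IsDiscreteValuationRing 𝒪]
    [IsAdicComplete (maximalIdeal 𝒪) 𝒪] [Finite (ResidueField 𝒪)] [CharZero 𝒪],
    (p : 𝒪) ∈ maximalIdeal 𝒪 → (∃ ζ : 𝒪, IsPrimitiveRoot ζ p) →
  ∀ ρ : GaloisRepAdic 𝒪, m59e_IsTate p W ρ →
    (¬ W.IsGoodPrimeFor p → ρ.IsStrictOrdinaryAt p) →
  ∀ (S : Finset ℕ) (N₁ : ℕ), m59e_IsBadSet W p S → Squarefree N₁ →
    (∀ ℓ : ℕ, ℓ.Prime → ℓ ∣ N₁ → ℓ ∈ S) →
    m59e_Occ p W S N₁ →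
    (∀ q : ℕ, q.Prime → q ≠ p → q ∣ N₁ → ¬ ρ.residual.IsUnramifiedAt q) →
    (p ∣ N₁ → ¬ m59e_Occ p W S (N₁ / p)) →
    (p ∣ N₁ → ¬ Peu (ResidueField 𝒪) ρ.residual p) →
    (W.IsGoodPrimeFor p → ¬ p ∣ N₁) →
    m59ci_Concl W 𝒪 S

/-- the old seam is stronger. -/
theorem m59d_chainInputZS_of_chainInputZ (Peu : m59e_PeuPred) (h : m59d_ChainInputZ_stmt Peu) :
    m59d_ChainInputZS_stmt Peu := by
  intro p _ hp W hΔ hW 𝒪 _ _ _ _ _ _ hp𝒪 hζ ρ hT _ S N₁ hS hN₁sq hN₁S hOcc hram hII hpeu hgood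
  exact h p hp W hΔ hW 𝒪 hp𝒪 hζ ρ hT S N₁ hS hN₁sq hN₁S hOcc hram hII hpeu hgood

/-- **[CORE] (issue 3) from [CHAIN-INPUT] (issue 3)**: `m59d_chain_patch` + the read-off of `χ`
(the proof of `m59e_coreZ_of` verbatim). -/
theorem m59e_coreZS_of (Peu : m59e_PeuPred) (hI : m59d_ChainInputZS_stmt Peu) :
    m59e_CoreZS_stmt Peu := by
  intro p _ hp W hΔ hW 𝒪 _ _ _ _ _ _ hp𝒪 hζ ρ hT hSO S N₁ hS hN₁sq hN₁S hOcc hram hII hpeu hgood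
  obtain ⟨S', N, _, hSS', hNsq, hNS', lam, T0, _, _, x₂, D, act, hact⟩ :=
    hI p hp W hΔ hW 𝒪 hp𝒪 hζ ρ hT hSO S N₁ hS hN₁sq hN₁S hOcc hram hII hpeu hgood
  have hker := m59d_cd_ker D
  have hrange := m59e_act_mem_range hNS' D.j act (fun ℓ hℓ hℓN hℓS => by
    obtain ⟨t, ht, _⟩ := hact ℓ hℓ hℓN hℓS
    exact ⟨t, ht⟩)
  obtain ⟨χ, hχ⟩ := m59e_chi_of_ker D.j x₂ hker act hrange
  refine ⟨S', N, inferInstance, χ, hSS', hNsq, hNS', ?_⟩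
  intro ℓ hℓ hℓN hℓS A hA σ hσ
  obtain ⟨t, ht, hx⟩ := hact ℓ hℓ hℓN hℓS
  rw [hχ _ t ht, hx]
  have hℓS0 : ℓ ∉ S := fun h => hℓS (Finset.mem_coe.mpr (hSS' h))
  have hℓp : ℓ ≠ p := fun h => hℓS0 (h ▸ hS.1)
  have hgoodℓ : W.IsGoodPrimeFor ℓ := by
    by_contra hb
    exact hℓS0 (hS.2 ℓ hℓ hb)
  exact hT.frob ℓ hℓ hℓp hgoodℓ A hA σ hσ

/-- **[CI-III], issue 3** (case (III): `W` multiplicative at `p`, `p ∤ N₁`), with `ρ_W` STRICTLY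
ordinary at `p` (the unramified quotient character is `±1` exactly: `a_W = 0`). -/
def m59ci_CaseIIIS_stmt (Peu : m59e_PeuPred) : Prop :=
  ∀ (p : ℕ) [Fact p.Prime], p = 3 ∨ p = 5 → ∀ W : WeierstrassCurve ℤ, W.Δ ≠ 0 →
    W.IsSemistableModel →
  ∀ (𝒪 : Type) [CommRing 𝒪] [IsDomain 𝒪] [IsDiscreteValuationRing 𝒪]
    [IsAdicComplete (maximalIdeal 𝒪) 𝒪] [Finite (ResidueField 𝒪)] [CharZero 𝒪],
    (p : 𝒪) ∈ maximalIdeal 𝒪 → (∃ ζ : 𝒪, IsPrimitiveRoot ζ p) →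
  ∀ ρ : GaloisRepAdic 𝒪, m59e_IsTate p W ρ → ρ.IsStrictOrdinaryAt p →
  ∀ (S : Finset ℕ) (N₁ : ℕ), m59e_IsBadSet W p S → Squarefree N₁ →
    (∀ ℓ : ℕ, ℓ.Prime → ℓ ∣ N₁ → ℓ ∈ S) →
    m59e_Occ p W S N₁ →
    (∀ q : ℕ, q.Prime → q ≠ p → q ∣ N₁ → ¬ ρ.residual.IsUnramifiedAt q) →
    -- case (III)
    ¬ W.IsGoodPrimeFor p → ¬ p ∣ N₁ →
    m59ci_Concl W 𝒪 S

/-- the old seam is stronger. -/
theorem m59ci_caseIIIS_of_caseIII (Peu : m59e_PeuPred) (h : m59ci_CaseIII_stmt Peu) :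
    m59ci_CaseIIIS_stmt Peu := by
  intro p _ hp W hΔ hW 𝒪 _ _ _ _ _ _ hp𝒪 hζ ρ hT _ S N₁ hS hN₁sq hN₁S hOcc hram hbad hpN
  exact h p hp W hΔ hW 𝒪 hp𝒪 hζ ρ hT S N₁ hS hN₁sq hN₁S hOcc hram hbad hpN

/-- **[CHAIN-INPUT] (issue 3) from its two leaves**: cases (d0), (II) by `m59ci_chainInput_of`'s first
branch, case (III) by the strict leaf. -/
theorem m59ci_chainInputS_of (Peu : m59e_PeuPred) (hL : m59ci_Level_stmt Peu)
    (hIII : m59ci_CaseIIIS_stmt Peu) : m59d_ChainInputZS_stmt Peu := by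
  intro p hpF hp W hΔ hW 𝒪 _ _ _ _ _ _ hp𝒪 hζ ρ hT hSO S N₁ hS hN₁sq hN₁S hOcc hram hII hpeu hgood
  by_cases hcase : W.IsGoodPrimeFor p ∨ p ∣ N₁
  · -- cases (d0), (II): the first branch of `m59ci_chainInput_of`, verbatim
    obtain ⟨S', N, hNZ, hSS', hNsq, hNS', T8, Tn, κ, _, _, _, a, l8, t0, ln, ε8, εn, m, ch, ee,
      rr, d, e, EE, T0, _, _, _, x₂, j, K, _, γ, β, act, hch, hl8, hl8', han, hε8, hεn, hrr, hd0,
      hγ, hβ, hLv, hact⟩ :=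
      hL p hp W hΔ hW 𝒪 hp𝒪 hζ ρ hT S N₁ hS hN₁sq hN₁S hOcc hram hII hpeu hgood hcase
    have hp2 : p ≠ 2 := by
      rcases hp with rfl | rfl <;> norm_num
    obtain ⟨lam, hlam⟩ := IsDiscreteValuationRing.exists_irreducible 𝒪
    have hmax : maximalIdeal 𝒪 = Ideal.span {lam} :=
      (IsDiscreteValuationRing.irreducible_iff_uniformizer lam).1 hlam
    exact ⟨S', N, hNZ, hSS', hNsq, hNS', lam, T0, inferInstance, inferInstance,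
      (x₂ : T0 →+* 𝒪),
      m59ci_data hpF.out hp2 hp𝒪 hmax a l8 t0 ln ε8 εn ch ee rr d e EE x₂ j γ β hch hl8 hl8'
        han hε8 hεn hrr hd0 hγ hβ hLv,
      act, hact⟩
  · rw [not_or] at hcase
    exact hIII p hp W hΔ hW 𝒪 hp𝒪 hζ ρ hT (hSO hcase.1) S N₁ hS hN₁sq hN₁S hOcc hram hcase.1
      hcase.2

end Fermat.Agent.M59
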