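import Fermat.Agent.M59.Top.EngSeams
import Fermat.Agent.TW.Aut.RelGamma0Theta

/-!
M59 / box [C + S38g], LEVEL 2 (helper9, chief architect; ruling #48).  Prefix `m59m_`.

`m59m_lowerQ_of : m59m_Mazur_stmt → m59m_Hard_stmt → m59e_LowerQ_stmt`  (PROVED).

The cut is the one of S43 (`s43t_hard_of_clean`), Frey-free:

* `m59m_IsHard p ρ̄ q` : `q ≡ 1 (p)` and `ρ̄(Frob_q)` scalar.
* **[MAZUR]** `m59m_Mazur_stmt` : `ρ̄` unramified at `q ∣ N`, `q ≠ p`, `q` NOT hard ⟹ `Occ (N / q)`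
  (Mazur's principle, sharp form; `q = 2` included (Hesse route); `p ∥ N` allowed).
* **[HARD]** `m59m_Hard_stmt` : `q` hard, and EVERY prime `ℓ ∣ N`, `ℓ ≠ p`, at which `ρ̄` is
  unramified is hard ⟹ `Occ (N / q)`  (the landed machine with `Smin` := the primes of `N` at
  which `ρ̄` is ramified; at `p ∥ N` its ordinary twin).
* `m59e_occ_mono` : `Occ` is monotone in the level (main: `twe_rg_theta_lift`).
-/

set_option autoImplicit false

open Polynomial CuspForm IsLocalRing WeierstrassCurve Fermat.Agent.TW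

namespace Fermat.Agent.M59

/-- `Occ` is monotone: an eigensystem of level `M` away from `S` gives one of level `M'`, `M ∣ M'`,
as soon as the primes of `M'` lie in `S`. -/
theorem m59e_occ_mono (p : ℕ) (W : WeierstrassCurve ℤ) (S : Finset ℕ) {M M' : ℕ} (h : M ∣ M')
    (hM' : 0 < M') (hS : ∀ ℓ : ℕ, ℓ.Prime → ℓ ∣ M' → ℓ ∈ S) (hocc : m59e_Occ p W S M) :
    m59e_Occ p W S M' := by
  obtain ⟨_, k, _, _, θ, hθ⟩ := hocc
  have hne : NeZero M' := ⟨hM'.ne'⟩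
  obtain ⟨θ', hθ'⟩ := twe_rg_theta_lift h S S (Finset.Subset.refl S) hS θ
  refine ⟨hne, k, inferInstance, inferInstance, θ', ?_⟩
  intro ℓ hℓ hℓM' hℓS
  have hℓM : ¬ ℓ ∣ M := fun hd => hℓM' (dvd_trans hd h)
  rw [hθ' ℓ hℓ hℓM' hℓS hℓM hℓS]
  exact hθ ℓ hℓ hℓM hℓS

/-- `q` is hard for `ρ̄`: `q ≡ 1 mod p` and `ρ̄(Frob_q)` is scalar. -/
def m59m_IsHard {k : Type} [Field k] (p : ℕ) (ρbar : ResidualGaloisRep k) (q : ℕ) : Prop :=
  q % p = 1 ∧ twt_FrobScalar ρbar q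

/-- **[MAZUR]** Mazur's principle at a non-hard `q ≠ p` (machine vocabulary). -/
def m59m_Mazur_stmt : Prop :=
  ∀ (p : ℕ) [Fact p.Prime], p = 3 ∨ p = 5 → ∀ W : WeierstrassCurve ℤ, W.Δ ≠ 0 →
    W.IsSemistableModel →
  ∀ (𝒪 : Type) [CommRing 𝒪] [IsDomain 𝒪] [IsDiscreteValuationRing 𝒪]
    [IsAdicComplete (maximalIdeal 𝒪) 𝒪] [Finite (ResidueField 𝒪)] [CharZero 𝒪],
    (p : 𝒪) ∈ maximalIdeal 𝒪 →
  ∀ ρ : GaloisRepAdic 𝒪, m59e_IsTate p W ρ →
  ∀ (S : Finset ℕ) (N q : ℕ), m59e_IsBadSet W p S → 2 ∈ S → Squarefree N →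
    (∀ ℓ : ℕ, ℓ.Prime → ℓ ∣ N → ℓ ∈ S) → q.Prime → q ≠ p → q ∣ N →
    (W.IsGoodPrimeFor p → ¬ p ∣ N) →
    ρ.residual.IsUnramifiedAt q → ¬ m59m_IsHard p ρ.residual q →
    m59e_Occ p W S N → m59e_Occ p W S (N / q)

/-- **[HARD]** lowering at a hard prime when every unramified prime of the level is hard. -/
def m59m_Hard_stmt : Prop :=
  ∀ (p : ℕ) [Fact p.Prime], p = 3 ∨ p = 5 → ∀ W : WeierstrassCurve ℤ, W.Δ ≠ 0 →
    W.IsSemistableModel →
  ∀ (𝒪 : Type) [CommRing 𝒪] [IsDomain 𝒪] [IsDiscreteValuationRing 𝒪]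
    [IsAdicComplete (maximalIdeal 𝒪) 𝒪] [Finite (ResidueField 𝒪)] [CharZero 𝒪],
    (p : 𝒪) ∈ maximalIdeal 𝒪 →
  ∀ ρ : GaloisRepAdic 𝒪, m59e_IsTate p W ρ →
  ∀ (S : Finset ℕ) (N q : ℕ), m59e_IsBadSet W p S → 2 ∈ S → Squarefree N →
    (∀ ℓ : ℕ, ℓ.Prime → ℓ ∣ N → ℓ ∈ S) → q.Prime → q ≠ p → q ∣ N →
    (W.IsGoodPrimeFor p → ¬ p ∣ N) →
    ρ.residual.IsUnramifiedAt q → m59m_IsHard p ρ.residual q →
    (∀ ℓ : ℕ, ℓ.Prime → ℓ ≠ p → ℓ ∣ N → ρ.residual.IsUnramifiedAt ℓ →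
      m59m_IsHard p ρ.residual ℓ) →
    m59e_Occ p W S N → m59e_Occ p W S (N / q)

/-- **[C + S38g] from [MAZUR] and [HARD].** -/
theorem m59m_lowerQ_of (hMz : m59m_Mazur_stmt) (hH : m59m_Hard_stmt) : m59e_LowerQ_stmt := by
  intro p _ hp W hΔ hW 𝒪 _ _ _ _ _ _ hp𝒪 ρ hT S N
  induction N using Nat.strong_induction_on with
  | _ N ih =>
    intro q hS h2S hsq hNS hq hqp hqN hgood hunr hocc
    by_cases hhard : m59m_IsHard p ρ.residual q
    · by_cases hall : ∀ ℓ : ℕ, ℓ.Prime → ℓ ≠ p → ℓ ∣ N → ρ.residual.IsUnramifiedAt ℓ →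
          m59m_IsHard p ρ.residual ℓ
      · exact hH p hp W hΔ hW 𝒪 hp𝒪 ρ hT S N q hS h2S hsq hNS hq hqp hqN hgood hunr hhard hall hocc
      · push Not at hall
        obtain ⟨ℓ, hℓ, hℓp, hℓN, hℓunr, hℓhard⟩ := hall
        have hℓq : ℓ ≠ q := fun h => hℓhard (h ▸ hhard)
        have hNpos : 0 < N := Nat.pos_of_ne_zero hsq.ne_zero
        have hdiv : N / ℓ ∣ N := Nat.div_dvd_of_dvd hℓN
        have hlt : N / ℓ < N := Nat.div_lt_self hNpos hℓ.one_lt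
        have hsq' : Squarefree (N / ℓ) := hsq.squarefree_of_dvd hdiv
        have hNS' : ∀ r : ℕ, r.Prime → r ∣ N / ℓ → r ∈ S := fun r hr hrd =>
          hNS r hr (dvd_trans hrd hdiv)
        -- `q ∣ N / ℓ`
        have hqN' : q ∣ N / ℓ := by
          have h1 : q ∣ ℓ * (N / ℓ) := by rwa [Nat.mul_div_cancel' hℓN]
          rcases (Nat.Prime.dvd_mul hq).mp h1 with h | h
          · exact absurd ((Nat.prime_dvd_prime_iff_eq hq hℓ).mp h).symm hℓq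
          · exact h
        -- remove ℓ by Mazur, then q by induction, then go back up
        have hocc1 : m59e_Occ p W S (N / ℓ) :=
          hMz p hp W hΔ hW 𝒪 hp𝒪 ρ hT S N ℓ hS h2S hsq hNS hℓ hℓp hℓN hgood hℓunr hℓhard hocc
        have hocc2 : m59e_Occ p W S (N / ℓ / q) :=
          ih (N / ℓ) hlt q hS h2S hsq' hNS' hq hqp hqN' (fun hg hd => hgood hg (dvd_trans hd hdiv))
            hunr hocc1
        have hdiv2 : N / ℓ / q ∣ N / q := by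
          rw [Nat.div_div_eq_div_mul, mul_comm, ← Nat.div_div_eq_div_mul]
          exact Nat.div_dvd_of_dvd (by
            have h1 : ℓ ∣ q * (N / q) := by rwa [Nat.mul_div_cancel' hqN]
            rcases (Nat.Prime.dvd_mul hℓ).mp h1 with h | h
            · exact absurd ((Nat.prime_dvd_prime_iff_eq hℓ hq).mp h) hℓq
            · exact h)
        have hNq : N / q ∣ N := Nat.div_dvd_of_dvd hqN
        exact m59e_occ_mono p W S hdiv2
          (Nat.div_pos (Nat.le_of_dvd hNpos hqN) hq.pos)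
          (fun r hr hrd => hNS r hr (dvd_trans hrd hNq)) hocc2
    · exact hMz p hp W hΔ hW 𝒪 hp𝒪 ρ hT S N q hS h2S hsq hNS hq hqp hqN hgood hunr hhard hocc

end Fermat.Agent.M59
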