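import Fermat.Agent.M59.Top.LowerQOf

/-!
M59 / [CORE], input seams pinned by the chief (helper9; ruling #48).  Prefix `m59e_`.

* **[ENTRY-ext]** `m59e_EntryExt_stmt` (owner helper2, block M59/LG): from `m59e_Occ p W S N`
  (eigensystem away from the BIG set `S`) to an eigensystem `θ₀` away from a smaller set `S₀ ⊆ S`
  (`p ∈ S₀`, primes of `N` in `S₀`), compatible with `ρ̄` at EVERY prime `ℓ ∤ N`, `ℓ ∉ S₀` — in
  particular at the bad primes of `W` in `S \ S₀`, the primes of the walk (helper3's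
  `S_k`-convention, #5265 (0)).  Proof: lying-over for the finite `ℤ`-algebras, lift to an
  eigenform, residual representation of the eigenform, Chebotarev + Brauer–Nesbitt (`ρ̄` absolutely
  irreducible), descent of the values to the residue field.
* `m59e_compat_lift` : the eigensystems `θ_k` of the higher levels of the chain are FREE
  (main: `twe_rg_theta_lift`), with `twt_Compat` transported (`twt_NonEis` at every level comes
  from `m59e_IsTate.nonEis` applied to the set of that level).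
-/

set_option autoImplicit false

open Polynomial CuspForm IsLocalRing WeierstrassCurve Fermat.Agent.TW

namespace Fermat.Agent.M59

/-- **[ENTRY-ext]** -/
def m59e_EntryExt_stmt : Prop :=
  ∀ (p : ℕ) [Fact p.Prime], p = 3 ∨ p = 5 → ∀ W : WeierstrassCurve ℤ, W.Δ ≠ 0 →
    W.IsSemistableModel →
  ∀ (𝒪 : Type) [CommRing 𝒪] [IsDomain 𝒪] [IsDiscreteValuationRing 𝒪]
    [IsAdicComplete (maximalIdeal 𝒪) 𝒪] [Finite (ResidueField 𝒪)] [CharZero 𝒪],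
    (p : 𝒪) ∈ maximalIdeal 𝒪 →
  ∀ ρ : GaloisRepAdic 𝒪, m59e_IsTate p W ρ →
  ∀ (S S₀ : Finset ℕ) (N : ℕ) [NeZero N], m59e_IsBadSet W p S → Squarefree N →
    S₀ ⊆ S → p ∈ S₀ → (∀ ℓ : ℕ, ℓ.Prime → ℓ ∣ N → ℓ ∈ S₀) →
    m59e_Occ p W S N →
    ∃ θ₀ : heckeAlgebra N 2 (↑S₀ : Set ℕ) →+* ResidueField 𝒪,
      twt_Compat θ₀ ρ.residual ∧ twt_NonEis θ₀

/-- the eigensystems of the higher levels of the chain are free: `θ' = θ ∘ r`. -/
theorem m59e_compat_lift {k : Type} [Field k] {N N' : ℕ} [NeZero N] [NeZero N'] (h : N ∣ N')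
    (S S' : Finset ℕ) (hS : S ⊆ S') (hN' : ∀ q : ℕ, q.Prime → q ∣ N' → q ∈ S')
    (θ : heckeAlgebra N 2 (↑S : Set ℕ) →+* k) (ρbar : ResidualGaloisRep k)
    (hc : twt_Compat θ ρbar) :
    ∃ θ' : heckeAlgebra N' 2 (↑S' : Set ℕ) →+* k, twt_Compat θ' ρbar ∧
      ∀ (ℓ : ℕ) (hℓ : ℓ.Prime) (h1 : ¬ ℓ ∣ N') (h2 : ℓ ∉ (↑S' : Set ℕ)) (h3 : ¬ ℓ ∣ N)
        (h4 : ℓ ∉ (↑S : Set ℕ)),
        θ' (heckeAlgebra.T hℓ h1 h2) = θ (heckeAlgebra.T hℓ h3 h4) := by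
  obtain ⟨θ', hθ'⟩ := twe_rg_theta_lift h S S' hS hN' θ
  refine ⟨θ', ?_, hθ'⟩
  intro ℓ hℓ hℓN' hℓS' A hA σ hσ
  have h3 : ¬ ℓ ∣ N := fun hd => hℓN' (dvd_trans hd h)
  have h4 : ℓ ∉ (↑S : Set ℕ) := fun hm => hℓS' (Finset.mem_coe.mpr (hS (Finset.mem_coe.mp hm)))
  rw [hθ' ℓ hℓ hℓN' hℓS' h3 h4]
  exact hc ℓ hℓ h3 h4 A hA σ hσ

end Fermat.Agent.M59
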