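import Fermat.Agent.M59.Top.EngSeams
import Fermat.Agent.S58.Seams

/-!
M59 / shared cells [LINK] and [IRR-W], pinned by the chief (helper9; ruling #48).  Prefix `m59e_`.

Both Sink A ([LOW-core], helper20 #5309: [DICT], [IRR-W]) and box [MAZUR] (helper16 #5331:
[LINK], [IRR-W]) need to go back from the ABSTRACT `ρ̄` of the package `m59e_IsTate` to the
`p`-torsion `W[p](ℚ̄)` itself.  ONE statement, ONE owner (helper2), proved ONCE:

* **[LINK]** `m59e_Link_stmt` : `m59e_IsTate p W ρ` ⟹ an injective additive `G_ℚ`-equivariant map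
  `W[p](ℚ̄) → ρ̄.V` (the `𝔽_p`-structure of `ρ̄`).  True for EVERY `ρ` with `m59e_IsTate`
  (`frobRes` + Chebotarev + Brauer–Nesbitt; `ρ̄` absolutely irreducible; main: `twt_re_equiv`,
  `s44bm_copy`, `s44be_trace_det_abs`), no change of the package [G5].
* **[IRR-W]** `m59e_IrrW_stmt` : `m59e_IsTate p W ρ` ⟹ `W.ModRepIsIrreducible p`
  (corollary of [LINK] and `m59e_IsTate.irr`).
-/

set_option autoImplicit false

open Polynomial CuspForm IsLocalRing WeierstrassCurve Fermat.Agent.TW Fermat.Agent.S58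

namespace Fermat.Agent.M59

/-- **[LINK]** the `𝔽_p`-structure of `ρ̄`: `W[p](ℚ̄) ↪ ρ̄.V`, additive, `G_ℚ`-equivariant. -/
def m59e_Link_stmt : Prop :=
  ∀ (p : ℕ) [Fact p.Prime], p = 3 ∨ p = 5 → ∀ W : WeierstrassCurve ℤ, W.Δ ≠ 0 →
    W.IsSemistableModel →
  ∀ (𝒪 : Type) [CommRing 𝒪] [IsDomain 𝒪] [IsDiscreteValuationRing 𝒪]
    [IsAdicComplete (maximalIdeal 𝒪) 𝒪] [Finite (ResidueField 𝒪)] [CharZero 𝒪],
    (p : 𝒪) ∈ maximalIdeal 𝒪 →
  ∀ ρ : GaloisRepAdic 𝒪, m59e_IsTate p W ρ →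
    ∃ f : Submodule.torsionBy ℤ (s58_E W) (p : ℤ) →+ ρ.residual.V,
      Function.Injective f ∧
      ∀ (σ : twt_G) (x : Submodule.torsionBy ℤ (s58_E W) (p : ℤ)),
        f (σ • x) = ρ.residual.ρ σ (f x)

/-- **[IRR-W]** back from `ρ̄` to `W[p]`: irreducibility. -/
def m59e_IrrW_stmt : Prop :=
  ∀ (p : ℕ) [Fact p.Prime], p = 3 ∨ p = 5 → ∀ W : WeierstrassCurve ℤ, W.Δ ≠ 0 →
    W.IsSemistableModel →
  ∀ (𝒪 : Type) [CommRing 𝒪] [IsDomain 𝒪] [IsDiscreteValuationRing 𝒪]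
    [IsAdicComplete (maximalIdeal 𝒪) 𝒪] [Finite (ResidueField 𝒪)] [CharZero 𝒪],
    (p : 𝒪) ∈ maximalIdeal 𝒪 →
  ∀ ρ : GaloisRepAdic 𝒪, m59e_IsTate p W ρ → W.ModRepIsIrreducible p

end Fermat.Agent.M59
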