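import Fermat.Agent.M59.Top.EngSeams
import Fermat.Agent.S56.Cheb.Exists
import Fermat.Agent.S53.Burnside
import Fermat.Agent.JT3.Pack.Res.S42

/-!
M59 / cell [RIGID-r] (helper9, chief architect; ruling #48; paper proof: referee helper12 #5308 (1)).
Prefix `m59e_rig`.

The RIGIDIFIER at `p = 3`: a prime `r ≡ 2 (3)`, good for `W`, outside any given finite set, with
`a_r(W) ≢ 0 (3)` — i.e. `ρ̄(Frob_r)` has determinant `−1` and NON-ZERO trace, so the ratio of its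
eigenvalues is `≠ −1 = r^{±1}`: no `r`-new form is congruent to `ρ̄`, every deformation is
unramified at `r`, and `r ∣ N` makes `Γ₀(N)/±1` free of elements of order `3` (`m59ep_Rigid 3 N`).

* `m59e_rig_sigma` : `twt_TWHyp ρ̄`, `2 ≠ 0`, `H` of index `2`  ⟹  some `σ ∉ H` has `tr ρ̄(σ) ≠ 0`
  (Burnside for `H` over the algebraic closure: otherwise `tr (ρ̄(σ₀) X) = 0` for all `X`, against
  `tr 1 = 2`).
* `m59e_rig_cheb` : every `ρ̄(σ)` is `ρ̄(Frob_ℓ)` for a good prime `ℓ ≠ p` outside any finite set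
  (main's `s56c_exists`), hence has characteristic polynomial `X² − a_ℓ(W) X + ℓ`.
* `m59e_rigidifier` : the prime `r`.
-/

set_option autoImplicit false
set_option linter.style.haveILetI false
set_option linter.unusedSectionVars false

open Polynomial IsLocalRing WeierstrassCurve Fermat.Agent.TW

namespace Fermat.Agent.M59

/-- **Burnside for a subgroup of index `2`**: some element outside has non-zero trace. -/
theorem m59e_rig_sigma {k : Type} [Field k] (h2 : (2 : k) ≠ 0) (ρbar : ResidualGaloisRep k)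
    (hTW : twt_TWHyp ρbar) (H : Subgroup twt_G) (hH : H.index = 2) :
    ∃ σ : twt_G, σ ∉ H ∧ LinearMap.trace k ρbar.V (ρbar.ρ σ) ≠ 0 := by
  classical
  by_contra hcon
  push Not at hcon
  set K := AlgebraicClosure k with hK
  set ρK := ρbar.baseChange K with hρK
  have hfr : Module.finrank K ρK.V = 2 := ρK.finrank_eq
  haveI : Nontrivial ρK.V := Module.nontrivial_of_finrank_pos (R := K) (by rw [hfr]; norm_num)
  -- the restriction to `H`
  let r : H →* Module.End K ρK.V := ρK.ρ.comp H.subtype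
  have hirr : ∀ W : Submodule K ρK.V, (∀ g : H, ∀ x ∈ W, r g x ∈ W) → W = ⊥ ∨ W = ⊤ :=
    fun W hW => hTW K H hH W (fun σ hσ x hx => hW ⟨σ, hσ⟩ x hx)
  have hspan := Fermat.Agent.S53.burnside_algClosed (K := K) (V := ρK.V) r hirr
  -- an element outside `H`
  obtain ⟨σ₀, hσ₀⟩ : ∃ σ₀ : twt_G, σ₀ ∉ H := by
    by_contra hall
    push Not at hall
    have : H = ⊤ := (Subgroup.eq_top_iff' H).mpr hall
    rw [this, Subgroup.index_top] at hH
    exact absurd hH (by norm_num)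
  -- traces over `K`
  have htrK : ∀ σ : twt_G, σ ∉ H → LinearMap.trace K ρK.V (ρK.ρ σ) = 0 := by
    intro σ hσ
    have h1 : ρK.ρ σ = (ρbar.ρ σ).baseChange K := rfl
    rw [h1, LinearMap.trace_baseChange, hcon σ hσ, map_zero]
  -- the functional `X ↦ tr (ρ(σ₀) X)` vanishes on the span of `ρ(H)`, hence everywhere
  let φ : Module.End K ρK.V →ₗ[K] K :=
    (LinearMap.trace K ρK.V).comp (LinearMap.mulLeft K (ρK.ρ σ₀))
  have hφ : ∀ X : Module.End K ρK.V, φ X = 0 := by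
    intro X
    have hX : X ∈ Submodule.span K (Set.range r) := by rw [hspan]; trivial
    induction hX using Submodule.span_induction with
    | mem x hx =>
      obtain ⟨g, rfl⟩ := hx
      show LinearMap.trace K ρK.V (ρK.ρ σ₀ * ρK.ρ (g : twt_G)) = 0
      rw [← map_mul]
      refine htrK _ (fun hmem => hσ₀ ?_)
      have := H.mul_mem hmem (H.inv_mem g.2)
      rwa [mul_inv_cancel_right] at this
    | zero => exact map_zero φ
    | add x y _ _ hx hy => rw [map_add, hx, hy, add_zero]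
    | smul c x _ hx => rw [map_smul, hx, smul_zero]
  have h1 := hφ (ρK.ρ σ₀⁻¹)
  have h3 : φ (ρK.ρ σ₀⁻¹) = LinearMap.trace K ρK.V (ρK.ρ σ₀ * ρK.ρ σ₀⁻¹) := rfl
  rw [h3, ← map_mul, mul_inv_cancel, map_one, LinearMap.trace_one, hfr] at h1
  have h4 : (2 : K) ≠ 0 := by
    intro h
    apply h2
    have : algebraMap k K 2 = 0 := by rw [map_ofNat]; exact h
    exact (map_eq_zero (algebraMap k K)).mp this
  exact h4 (by exact_mod_cast h1)

section

variable {p : ℕ} [Fact p.Prime] {W : WeierstrassCurve ℤ} {𝒪 : Type} [CommRing 𝒪] [IsLocalRing 𝒪]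
  {ρ : GaloisRepAdic 𝒪}

/-- **Chebotarev transfer**: every `ρ̄(σ)` is `ρ̄(Frob_ℓ)` at a good prime `ℓ ≠ p` outside `S`. -/
theorem m59e_rig_cheb (hΔ : W.Δ ≠ 0) (hT : m59e_IsTate p W ρ) (S : Finset ℕ) (σ : twt_G) :
    ∃ ℓ : ℕ, ℓ.Prime ∧ ℓ ∉ S ∧ ℓ ≠ p ∧ W.IsGoodPrimeFor ℓ ∧
      LinearMap.charpoly (ρ.residual.ρ σ) =
        X ^ 2 - C (((W.apOfModel ℓ : ℤ) : ResidueField 𝒪)) * X + C ((ℓ : ResidueField 𝒪)) := by
  classical
  obtain ⟨L, hL, hker⟩ := ρ.residual.factorsThroughFiniteLevel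
  obtain ⟨ℓ, A, τ, hℓ, hℓS, hA, hfrob, hτσ⟩ :=
    Fermat.Agent.S56.s56c_exists L hL (insert p (S ∪ W.Δ.natAbs.primeFactors)) σ
  have hℓp : ℓ ≠ p := fun h => hℓS (h ▸ Finset.mem_insert_self _ _)
  have hℓS' : ℓ ∉ S := fun h => hℓS (Finset.mem_insert_of_mem (Finset.mem_union_left _ h))
  have hgood : W.IsGoodPrimeFor ℓ := by
    intro hd
    refine hℓS (Finset.mem_insert_of_mem (Finset.mem_union_right _ ?_))
    rw [Nat.mem_primeFactors]
    exact ⟨hℓ, Int.natCast_dvd.mp hd, Int.natAbs_ne_zero.mpr hΔ⟩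
  have heq : ρ.residual.ρ τ = ρ.residual.ρ σ := by
    have h1 : ρ.residual.ρ (σ⁻¹ * τ) = 1 := by
      apply hker
      intro x hx
      rw [AlgEquiv.mul_apply, hτσ x hx]
      exact AlgEquiv.symm_apply_apply σ x
    have h2 : τ = σ * (σ⁻¹ * τ) := by rw [mul_inv_cancel_left]
    rw [h2, map_mul, h1, mul_one]
  refine ⟨ℓ, hℓ, hℓS', hℓp, hgood, ?_⟩
  rw [← heq]
  exact hT.frobRes ℓ hℓ hℓp hgood A hA τ hfrob

end

/-- **[RIGID-r]** the rigidifier at `p = 3`. -/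
theorem m59e_rigidifier [Fact (Nat.Prime 3)] (W : WeierstrassCurve ℤ) (hΔ : W.Δ ≠ 0)
    {𝒪 : Type} [CommRing 𝒪] [IsLocalRing 𝒪] (hp𝒪 : ((3 : ℕ) : 𝒪) ∈ maximalIdeal 𝒪)
    (ρ : GaloisRepAdic 𝒪) (hT : m59e_IsTate 3 W ρ) (S : Finset ℕ) :
    ∃ r : ℕ, r.Prime ∧ r ∉ S ∧ r ≠ 3 ∧ W.IsGoodPrimeFor r ∧ r % 3 = 2 ∧
      ((W.apOfModel r : ℤ) : ResidueField 𝒪) ≠ 0 := by
  classical
  set k := ResidueField 𝒪 with hk
  -- characteristic `3`
  have h3 : ((3 : ℕ) : k) = 0 := by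
    have : (residue 𝒪) ((3 : ℕ) : 𝒪) = 0 := (residue_eq_zero_iff _).mpr hp𝒪
    rwa [map_natCast] at this
  have h3' : (3 : k) = 0 := by exact_mod_cast h3
  have h2 : (2 : k) ≠ 0 := by
    intro h
    have : (1 : k) = 0 := by
      have e : (1 : k) = 3 - 2 := by norm_num
      rw [e, h3', h, sub_zero]
    exact one_ne_zero this
  have hfr : Module.finrank k ρ.residual.V = 2 := ρ.residual.finrank_eq
  -- trace and determinant of every `ρ̄(σ)` through Chebotarev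
  have hcp : ∀ σ : twt_G, ∃ ℓ : ℕ, ℓ.Prime ∧ ℓ ∉ S ∧ ℓ ≠ 3 ∧ W.IsGoodPrimeFor ℓ ∧
      LinearMap.trace k ρ.residual.V (ρ.residual.ρ σ) = ((W.apOfModel ℓ : ℤ) : k) ∧
      LinearMap.det (ρ.residual.ρ σ) = (ℓ : k) := by
    intro σ
    obtain ⟨ℓ, hℓ, hℓS, hℓp, hgood, hc⟩ := m59e_rig_cheb hΔ hT S σ
    obtain ⟨ht, hd⟩ := Fermat.Agent.JT3.prs_trace_det_of_charpoly hfr (ρ.residual.ρ σ) _ _ hc
    exact ⟨ℓ, hℓ, hℓS, hℓp, hgood, ht, hd⟩
  -- a prime not divisible by `3` is `1` or `-1` in `k`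
  have hval : ∀ ℓ : ℕ, ℓ.Prime → ℓ ≠ 3 → ((ℓ : k) = 1 ∧ ℓ % 3 = 1) ∨ ((ℓ : k) = -1 ∧ ℓ % 3 = 2) := by
    intro ℓ hℓ hℓ3
    have hmod : ℓ % 3 = 1 ∨ ℓ % 3 = 2 := by
      have h0 : ℓ % 3 ≠ 0 := by
        intro h0
        have hd : 3 ∣ ℓ := Nat.dvd_of_mod_eq_zero h0
        exact hℓ3 ((Nat.prime_dvd_prime_iff_eq (by norm_num) hℓ).mp hd).symm
      omega
    have hdecomp : (ℓ : k) = ((ℓ % 3 : ℕ) : k) := by
      have e : ℓ = 3 * (ℓ / 3) + ℓ % 3 := (Nat.div_add_mod ℓ 3).symm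
      have e' : (ℓ : k) = ((3 * (ℓ / 3) + ℓ % 3 : ℕ) : k) := by rw [← e]
      rw [e', Nat.cast_add, Nat.cast_mul, h3, zero_mul, zero_add]
    rcases hmod with h | h
    · left
      refine ⟨?_, h⟩
      rw [hdecomp, h]; norm_num
    · right
      refine ⟨?_, h⟩
      rw [hdecomp, h]
      have e : (-1 : k) = 2 - 3 := by norm_num
      rw [e, h3', sub_zero]; norm_num
  -- the determinant character and its kernel
  let δ : twt_G →* k := (LinearMap.det : Module.End k ρ.residual.V →* k).comp ρ.residual.ρ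
  have hδ : ∀ σ, δ σ = 1 ∨ δ σ = -1 := by
    intro σ
    obtain ⟨ℓ, hℓ, -, hℓ3, -, -, hd⟩ := hcp σ
    rcases hval ℓ hℓ hℓ3 with ⟨h, -⟩ | ⟨h, -⟩
    · left; show LinearMap.det (ρ.residual.ρ σ) = 1; rw [hd, h]
    · right; show LinearMap.det (ρ.residual.ρ σ) = -1; rw [hd, h]
  have hneg : (-1 : k) ≠ 1 := by
    intro h
    apply h2
    have : (2 : k) = 1 - (-1) := by norm_num
    rw [this, h, sub_self]
  -- an element of determinant `-1`: Frobenius at a Dirichlet prime `≡ 2 (3)`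
  obtain ⟨σ₁, hσ₁⟩ : ∃ σ₁ : twt_G, δ σ₁ = -1 := by
    obtain ⟨ℓ, hgt, hℓ, hmod⟩ := Nat.forall_exists_prime_gt_and_modEq (W.Δ.natAbs + 3)
      (q := 3) (a := 2) (by norm_num) (by norm_num)
    have hℓ3 : ℓ ≠ 3 := by omega
    have hℓmod : ℓ % 3 = 2 := by
      have := hmod
      unfold Nat.ModEq at this
      simpa using this
    have hgood : W.IsGoodPrimeFor ℓ := by
      intro hd
      have h1 : ℓ ∣ W.Δ.natAbs := Int.natCast_dvd.mp hd
      have h2 : ℓ ≤ W.Δ.natAbs := Nat.le_of_dvd (Int.natAbs_pos.mpr hΔ) h1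
      omega
    obtain ⟨A, τ, hA, hfrob⟩ := Fermat.Agent.S54.exists_isFrobeniusAt hℓ
    have hc := hT.frobRes ℓ hℓ hℓ3 hgood A hA τ hfrob
    obtain ⟨-, hd⟩ := Fermat.Agent.JT3.prs_trace_det_of_charpoly hfr (ρ.residual.ρ τ) _ _ hc
    refine ⟨τ, ?_⟩
    show LinearMap.det (ρ.residual.ρ τ) = -1
    rw [hd]
    rcases hval ℓ hℓ hℓ3 with ⟨-, h⟩ | ⟨h, -⟩
    · omega
    · exact h
  let H : Subgroup twt_G := δ.ker
  have hHmem : ∀ σ, σ ∈ H ↔ δ σ = 1 := fun σ => MonoidHom.mem_ker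
  have hH : H.index = 2 := by
    rw [Subgroup.index_eq_two_iff]
    refine ⟨σ₁, fun b => ?_⟩
    rw [hHmem, hHmem, map_mul, hσ₁]
    rcases hδ b with h | h
    · rw [h, one_mul]
      exact Or.inr ⟨rfl, hneg⟩
    · rw [h]
      refine Or.inl ⟨by norm_num, hneg⟩
  -- Burnside
  obtain ⟨σ, hσH, hσtr⟩ := m59e_rig_sigma h2 ρ.residual hT.tw H hH
  obtain ⟨r, hr, hrS, hr3, hgood, htr, hdet⟩ := hcp σ
  refine ⟨r, hr, hrS, hr3, hgood, ?_, ?_⟩
  · rcases hval r hr hr3 with ⟨h, -⟩ | ⟨-, h⟩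
    · exfalso
      apply hσH
      rw [hHmem]
      show LinearMap.det (ρ.residual.ρ σ) = 1
      rw [hdet, h]
    · exact h
  · rw [← htr]; exact hσtr

end Fermat.Agent.M59
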