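import Fermat.Statements.S59
import Fermat.Agent.S58
import Fermat.Prelude.Def_WeierstrassCurve_PeuRamifiee
import Fermat.Prelude.Def_GaloisRep_Residual

/-!
M59 / TOP (helper9, chief architect; ruling #48): the frozen S59 from THREE boxes + S58 (on main).
Prefix `m59t_`.

* `m59t_Eq2_stmt`    box B  : (E-q²), `q² ∥ M`, any `q ≠ p`;
* `m59t_LowerP_stmt` box A  : remove `p ∥ M` when `p ∣ ord_p Δ`, `M` squarefree and EVEN
  (= frozen S39 shape, contains S40; even level as refereed, helper12 #5197 (1));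
* `m59t_Old_stmt`    cell [OLD-r] : `M → M r` for a prime `r ∤ M`: PROVED here (`m59t_old`) from
  main's `s58o_oldLiftSeam`;
* `m59t_Eng_stmt`    ENGINE : from a squarefree level `N₁` (`p ∣ N₁` only if `p ∤ ord_p Δ`) to
  modularity of a cube-free level.  Boxes C + [S38g] are consumed INSIDE the engine, in machine
  vocabulary and in contrapositive form (a MINIMAL level in the sense of eigensystems away from a
  fixed finite set `S`): see `EngSeams.lean`.  No converse of Tate's theorem is used anywhere.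
-/

set_option autoImplicit false

open WeierstrassCurve WeierstrassCurve.Affine WeierstrassCurve.Affine.Point

namespace Fermat.Agent.M59

/-- `p ∣ ord_q Δ` (for semistable `W`: `W[p]` is unramified at `q ≠ p`, resp. flat at `q = p`). -/
abbrev m59t_flat (W : WeierstrassCurve ℤ) (p q : ℕ) : Prop :=
  (W.map (Int.castRingHom ℚ)).IsPeuRamifieeAt p q

/-- box B: (E-q²). -/
def m59t_Eq2_stmt : Prop :=
  ∀ p : ℕ, p = 3 ∨ p = 5 → ∀ W : WeierstrassCurve ℤ, W.Δ ≠ 0 → W.IsSemistableModel →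
    W.ModRepIsIrreducible p →
    ∀ M q : ℕ, 0 < M → q.Prime → q ≠ p → q ^ 2 ∣ M → ¬ q ^ 3 ∣ M →
      W.IsResiduallyModularOfLevel p M → W.IsResiduallyModularOfLevel p (M / q)

/-- box A: Mazur–Ribet at `p` for a general semistable `W`. -/
def m59t_LowerP_stmt : Prop :=
  ∀ p : ℕ, p = 3 ∨ p = 5 → ∀ W : WeierstrassCurve ℤ, W.Δ ≠ 0 → W.IsSemistableModel →
    W.ModRepIsIrreducible p → m59t_flat W p p →
    ∀ M : ℕ, Squarefree M → 2 ∣ M → p ∣ M →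
      W.IsResiduallyModularOfLevel p M → W.IsResiduallyModularOfLevel p (M / p)

/-- cell [OLD-r]: oldforms (`f(z) - β f(rz)`, `β` a root of `X² - a_r X + r`). -/
def m59t_Old_stmt : Prop :=
  ∀ (W : WeierstrassCurve ℤ) (p M r : ℕ), 0 < M → r.Prime → ¬ r ∣ M →
    W.IsResiduallyModularOfLevel p M → W.IsResiduallyModularOfLevel p (M * r)

/-- [OLD-r] is ON MAIN: `s58o_oldLiftSeam` (S58, cell (D), helper18). -/
theorem m59t_old : m59t_Old_stmt := by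
  intro W p M r hM hr hrM ⟨f, 𝔪, hf, hmax, hp𝔪, hcong⟩
  have : NeZero M := ⟨hM.ne'⟩
  obtain ⟨g, hg, hcoef⟩ := Fermat.Agent.S58.s58o_oldLiftSeam M r hr.prime.squarefree
    ((Nat.coprime_comm).mp ((Nat.Prime.coprime_iff_not_dvd hr).mpr hrM)) f hf
  refine ⟨g, 𝔪, hg, hmax, hp𝔪, fun ℓ hℓ hgood hℓN hℓp => ?_⟩
  have hℓM : ¬ ℓ ∣ M := fun h => hℓN (dvd_mul_of_dvd_left h r)
  have hℓr : ℓ.Coprime r := by
    rw [Nat.coprime_primes hℓ hr]
    rintro rfl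
    exact hℓN (dvd_mul_left ℓ M)
  obtain ⟨a, ha, ha𝔪⟩ := hcong ℓ hℓ hgood hℓM hℓp
  exact ⟨a, by rw [ha, hcoef ℓ hℓr], ha𝔪⟩

/-- ENGINE: modularity lifting from a squarefree level `N₁` with `p ∣ N₁` only if `p ∤ ord_p Δ`.
(The choice of a MINIMAL level below `N₁` is made INSIDE the engine, in machine vocabulary:
`Fermat/Agent/M59/Top/EngSeams.lean`.) -/
def m59t_Eng_stmt : Prop :=
  ∀ p : ℕ, p = 3 ∨ p = 5 → ∀ W : WeierstrassCurve ℤ, W.Δ ≠ 0 → W.IsSemistableModel →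
    W.ModRepIsIrreducible p →
    ∀ N₁ : ℕ, Squarefree N₁ → (p ∣ N₁ → ¬ m59t_flat W p p) →
      W.IsResiduallyModularOfLevel p N₁ →
      ∃ N : ℕ, W.IsModularModelOfLevel N ∧ ¬ p ^ 2 ∣ N ∧
        (∀ ℓ : ℕ, ℓ.Prime → (ℓ : ℤ) ∣ W.Δ → ℓ ∣ N) ∧ ∀ q : ℕ, q.Prime → ¬ q ^ 3 ∣ N

/-- Step 1: remove all squares away from `p`. -/
theorem m59t_comb_sqfree (p : ℕ) (R : ℕ → Prop)
    (hEq2 : ∀ M q : ℕ, 0 < M → q.Prime → q ≠ p → q ^ 2 ∣ M → ¬ q ^ 3 ∣ M → R M → R (M / q)) :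
    ∀ M : ℕ, 0 < M → ¬ p ^ 2 ∣ M → (∀ q : ℕ, q.Prime → q ≠ p → ¬ q ^ 3 ∣ M) → R M →
      ∃ N : ℕ, 0 < N ∧ N ∣ M ∧ R N ∧ ¬ p ^ 2 ∣ N ∧ ∀ q : ℕ, q.Prime → q ≠ p → ¬ q ^ 2 ∣ N := by
  intro M
  induction M using Nat.strong_induction_on with
  | _ M ih =>
    intro hM hp2 h3 hR
    by_cases hsq : ∀ q : ℕ, q.Prime → q ≠ p → ¬ q ^ 2 ∣ M
    · exact ⟨M, hM, dvd_rfl, hR, hp2, hsq⟩
    · push Not at hsq
      obtain ⟨q, hq, hqp, hq2⟩ := hsq
      have hqM : q ∣ M := dvd_trans (dvd_pow_self q (by norm_num)) hq2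
      have hdiv : M / q ∣ M := Nat.div_dvd_of_dvd hqM
      have hpos : 0 < M / q := Nat.div_pos (Nat.le_of_dvd hM hqM) hq.pos
      have hlt : M / q < M := Nat.div_lt_self hM hq.one_lt
      obtain ⟨N, hN0, hNd, hRN, hNp, hNsq⟩ := ih (M / q) hlt hpos
        (fun h => hp2 (dvd_trans h hdiv))
        (fun ℓ hℓ hℓp h => h3 ℓ hℓ hℓp (dvd_trans h hdiv))
        (hEq2 M q hM hq hqp hq2 (h3 q hq hqp) hR)
      exact ⟨N, hN0, dvd_trans hNd hdiv, hRN, hNp, hNsq⟩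

/-- squarefree from "no prime square divides". -/
theorem m59t_squarefree_of (p N : ℕ) (hp2 : ¬ p ^ 2 ∣ N)
    (h : ∀ q : ℕ, q.Prime → q ≠ p → ¬ q ^ 2 ∣ N) : Squarefree N := by
  rw [Nat.squarefree_iff_prime_squarefree]
  intro q hq hqq
  by_cases hqp : q = p
  · subst hqp
    exact hp2 (by rwa [pow_two])
  · exact h q hq hqp (by rwa [pow_two])

/-- Step 3: a minimal level (no prime can be removed). -/
theorem m59t_comb_min (R : ℕ → Prop) :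
    ∀ M : ℕ, Squarefree M → R M →
      ∃ N : ℕ, N ∣ M ∧ Squarefree N ∧ R N ∧ ∀ q : ℕ, q.Prime → q ∣ N → ¬ R (N / q) := by
  intro M
  induction M using Nat.strong_induction_on with
  | _ M ih =>
    intro hsq hR
    by_cases hall : ∀ q : ℕ, q.Prime → q ∣ M → ¬ R (M / q)
    · exact ⟨M, dvd_rfl, hsq, hR, hall⟩
    · push Not at hall
      obtain ⟨q, hq, hqM, hRq⟩ := hall
      have hM : 0 < M := Nat.pos_of_ne_zero hsq.ne_zero
      have hdiv : M / q ∣ M := Nat.div_dvd_of_dvd hqM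
      have hlt : M / q < M := Nat.div_lt_self hM hq.one_lt
      obtain ⟨N, hNd, hNsq, hRN, hNall⟩ := ih (M / q) hlt (hsq.squarefree_of_dvd hdiv) hRq
      exact ⟨N, dvd_trans hNd hdiv, hNsq, hRN, hNall⟩

/-- **PHASE I ([NORM]) from boxes A, B and [OLD-r] (only `r = 2`).** -/
theorem m59t_norm_of (hB : m59t_Eq2_stmt) (hA : m59t_LowerP_stmt)
    (hO : m59t_Old_stmt)
    (p : ℕ) (hp : p = 3 ∨ p = 5) (W : WeierstrassCurve ℤ) (hΔ : W.Δ ≠ 0)
    (hW : W.IsSemistableModel) (hirr : W.ModRepIsIrreducible p)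
    (M₀ : ℕ) (hM₀pos : 0 < M₀) (hres₀ : W.IsResiduallyModularOfLevel p M₀)
    (hM₀ : ¬ p ^ 2 ∣ M₀) (hM₀3 : ∀ q : ℕ, q.Prime → q ≠ p → ¬ q ^ 3 ∣ M₀) :
    ∃ N₁ : ℕ, Squarefree N₁ ∧ (p ∣ N₁ → ¬ m59t_flat W p p) ∧
      W.IsResiduallyModularOfLevel p N₁ := by
  have hpp : p.Prime := by rcases hp with rfl | rfl <;> norm_num
  -- Step 1: squares
  obtain ⟨M₁, hM₁pos, -, hR₁, hM₁p, hM₁sq⟩ :=
    m59t_comb_sqfree p (fun M => W.IsResiduallyModularOfLevel p M)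
      (fun M q hM hq hqp hq2 hq3 h => hB p hp W hΔ hW hirr M q hM hq hqp hq2 hq3 h)
      M₀ hM₀pos hM₀ hM₀3 hres₀
  have hsq₁ : Squarefree M₁ := m59t_squarefree_of p M₁ hM₁p hM₁sq
  -- Step 1.5: make the level even (helper12 #5197 (1)); 2 is removed again in Step 3 if flat
  obtain ⟨M₁', hsq₁', h2M₁', hR₁'⟩ : ∃ M₁' : ℕ, Squarefree M₁' ∧ 2 ∣ M₁' ∧
      W.IsResiduallyModularOfLevel p M₁' := by
    by_cases h2 : 2 ∣ M₁
    · exact ⟨M₁, hsq₁, h2, hR₁⟩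
    · refine ⟨M₁ * 2, ?_, dvd_mul_left 2 M₁, hO W p M₁ 2 hM₁pos Nat.prime_two h2 hR₁⟩
      rw [Nat.squarefree_mul_iff]
      exact ⟨Nat.coprime_comm.mp ((Nat.Prime.coprime_iff_not_dvd Nat.prime_two).mpr h2),
        hsq₁, Nat.prime_two.prime.squarefree⟩
  -- Step 2: the prime p
  obtain ⟨M₂, hsq₂, hpM₂, hR₂⟩ : ∃ M₂ : ℕ, Squarefree M₂ ∧ (p ∣ M₂ → ¬ m59t_flat W p p) ∧
      W.IsResiduallyModularOfLevel p M₂ := by
    by_cases hfl : p ∣ M₁' ∧ m59t_flat W p p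
    · refine ⟨M₁' / p, hsq₁'.squarefree_of_dvd (Nat.div_dvd_of_dvd hfl.1), ?_,
        hA p hp W hΔ hW hirr hfl.2 M₁' hsq₁' h2M₁' hfl.1 hR₁'⟩
      intro hpd
      exfalso
      obtain ⟨c, hc⟩ := hpd
      have h1 : M₁' = p * (M₁' / p) := (Nat.mul_div_cancel' hfl.1).symm
      have h2 : p * p ∣ M₁' := ⟨c, by rw [h1, hc]; ring⟩
      exact (Nat.squarefree_iff_prime_squarefree.mp hsq₁') p hpp h2
    · refine ⟨M₁', hsq₁', ?_, hR₁'⟩
      intro hpd hflat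
      exact hfl ⟨hpd, hflat⟩
  exact ⟨M₂, hsq₂, hpM₂, hR₂⟩

/-- **The frozen S59 from the three boxes and S58 (on main).** -/
theorem m59t_result_of (hB : m59t_Eq2_stmt) (hA : m59t_LowerP_stmt) (hE : m59t_Eng_stmt)
    (p : ℕ) (hp : p = 3 ∨ p = 5)
    (W : WeierstrassCurve ℤ) (hΔ : W.Δ ≠ 0) (hW : W.IsSemistableModel)
    (hirr : W.ModRepIsIrreducible p)
    (M₀ : ℕ) [NeZero M₀] (hres₀ : W.IsResiduallyModularOfLevel p M₀)
    (hM₀ : ¬ p ^ 2 ∣ M₀)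
    (hM₀3 : ∀ q : ℕ, q.Prime → q ≠ p → ¬ q ^ 3 ∣ M₀) :
    Mlc1IsModularModelOfExactConductorLevel W := by
  have hpp : p.Prime := by rcases hp with rfl | rfl <;> norm_num
  have : Fact p.Prime := ⟨hpp⟩
  have hp2 : p ≠ 2 := by rcases hp with rfl | rfl <;> norm_num
  obtain ⟨N₁, hsq, hpN, hR⟩ := m59t_norm_of hB hA m59t_old p hp W hΔ hW hirr M₀
    (Nat.pos_of_ne_zero (NeZero.ne M₀)) hres₀ hM₀ hM₀3
  obtain ⟨N, hmod, hp2N, hbad, hN3⟩ := hE p hp W hΔ hW hirr N₁ hsq hpN hR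
  have hcond : W.IsModularModelOfLevel W.conductorLevel :=
    Fermat.Agent.S58.result W hW N p hp2 hirr hp2N hmod hbad hN3
  exact ⟨W.conductorLevel, W.conductorLevel_pos, W.squarefree_conductorLevel,
    fun q hq => W.prime_dvd_conductorLevel_iff hΔ hq, hcond⟩

end Fermat.Agent.M59
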