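import Fermat.Agent.M59.Top.Seams

/-!
M59 / TOP, second form of PHASE I (helper9, chief architect; proposal helper15 #5287 (B),
refereed helper12 #5298).  Prefix `m59t_`.

Sink B is only asked at levels divisible by `4`:

* `m59t_up`           : `R(M) ⟹ R(L)` for EVERY multiple `L ≠ 0` of `M` (main: `s58o_lift`);
* `m59t_Eq2Odd_stmt`  : (E-q²) for ODD `q ≠ p`, at a level `M` with `4 ∥ M`;
* `m59t_Eq2Two_stmt`  : (E-2²), ONE instance: level `2 M'`, `M'` squarefree and even, with an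
  auxiliary prime `r ∣ M'`, `r ≡ 11 (12)`, `r ≢ 1 (p)`, `r ≠ p` (rigidity in every characteristic;
  the engine removes `r` again by minimality);
* `m59t_norm4_of`, `m59t_result_of4 : Eq2Odd → Eq2Two → LowerP → Eng → frozen S59`.

Step 0: `M₀ ↦ c M₀`, `c ∈ {1,2,4}`, so that `4 ∥ M`.  Step 1: remove the odd squares (every instance
has `4 ∥ M`).  Step 2: multiply by a Dirichlet prime `r`.  Step 3: (E-2²).  Step 4: the prime `p`
(box A, even squarefree level).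
-/

set_option autoImplicit false

open WeierstrassCurve WeierstrassCurve.Affine WeierstrassCurve.Affine.Point

namespace Fermat.Agent.M59

/-- `R(M) ⟹ R(L)` for every multiple `L ≠ 0` of `M` (main's `s58o_lift`; the congruences of
`IsResiduallyModularOfLevel p L` are only asked at the primes `ℓ ∤ L`). -/
theorem m59t_up (W : WeierstrassCurve ℤ) (p M L : ℕ) (hM : 0 < M) (hML : M ∣ L) (hL : L ≠ 0)
    (h : W.IsResiduallyModularOfLevel p M) : W.IsResiduallyModularOfLevel p L := by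
  obtain ⟨f, 𝔪, hf, hmax, hp𝔪, hcong⟩ := h
  have : NeZero M := ⟨hM.ne'⟩
  obtain ⟨g, hg, hcoef⟩ := Fermat.Agent.S58.s58o_lift hML hL hf
  refine ⟨g, 𝔪, hg, hmax, hp𝔪, fun ℓ hℓ hgood hℓL hℓp => ?_⟩
  have hℓM : ¬ ℓ ∣ M := fun h => hℓL (dvd_trans h hML)
  obtain ⟨a, ha, ha𝔪⟩ := hcong ℓ hℓ hgood hℓM hℓp
  refine ⟨a, ?_, ha𝔪⟩
  rw [ha, hcoef ℓ (fun q hq hqL _ hqℓ => ?_)]
  have hqe : q = ℓ := (Nat.prime_dvd_prime_iff_eq hq hℓ).mp hqℓ
  exact hℓL (hqe ▸ hqL)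

/-- box B, odd `q`: (E-q²) at a level with `4 ∥ M`. -/
def m59t_Eq2Odd_stmt : Prop :=
  ∀ p : ℕ, p = 3 ∨ p = 5 → ∀ W : WeierstrassCurve ℤ, W.Δ ≠ 0 → W.IsSemistableModel →
    W.ModRepIsIrreducible p →
    ∀ M q : ℕ, 0 < M → q.Prime → q ≠ p → q ≠ 2 → q ^ 2 ∣ M → ¬ q ^ 3 ∣ M → 4 ∣ M → ¬ 8 ∣ M →
      W.IsResiduallyModularOfLevel p M → W.IsResiduallyModularOfLevel p (M / q)

/-- box B, `q = 2`: (E-2²), one instance, at the level `2 M'` (`M'` squarefree, even) with a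
rigidifying prime `r ∣ M'`. -/
def m59t_Eq2Two_stmt : Prop :=
  ∀ p : ℕ, p = 3 ∨ p = 5 → ∀ W : WeierstrassCurve ℤ, W.Δ ≠ 0 → W.IsSemistableModel →
    W.ModRepIsIrreducible p →
    ∀ M' r : ℕ, Squarefree M' → 2 ∣ M' → r.Prime → r % 12 = 11 → r % p ≠ 1 → r ≠ p → r ∣ M' →
      W.IsResiduallyModularOfLevel p (2 * M') → W.IsResiduallyModularOfLevel p M'

/-- Step 1 of the second form: remove the odd squares away from `p`, keeping `4 ∥ M`. -/
theorem m59t_comb_sqfree4 (p : ℕ) (R : ℕ → Prop)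
    (hEq2 : ∀ M q : ℕ, 0 < M → q.Prime → q ≠ p → q ≠ 2 → q ^ 2 ∣ M → ¬ q ^ 3 ∣ M → 4 ∣ M →
      ¬ 8 ∣ M → R M → R (M / q)) :
    ∀ M : ℕ, 0 < M → 4 ∣ M → ¬ 8 ∣ M → ¬ p ^ 2 ∣ M →
      (∀ q : ℕ, q.Prime → q ≠ p → ¬ q ^ 3 ∣ M) → R M →
      ∃ N : ℕ, 0 < N ∧ 4 ∣ N ∧ ¬ 8 ∣ N ∧ R N ∧ ¬ p ^ 2 ∣ N ∧
        ∀ q : ℕ, q.Prime → q ≠ p → q ≠ 2 → ¬ q ^ 2 ∣ N := by
  intro M
  induction M using Nat.strong_induction_on with
  | _ M ih =>
    intro hM h4 h8 hp2 h3 hR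
    by_cases hsq : ∀ q : ℕ, q.Prime → q ≠ p → q ≠ 2 → ¬ q ^ 2 ∣ M
    · exact ⟨M, hM, h4, h8, hR, hp2, hsq⟩
    · push Not at hsq
      obtain ⟨q, hq, hqp, hq2ne, hq2⟩ := hsq
      have hqM : q ∣ M := dvd_trans (dvd_pow_self q (by norm_num)) hq2
      have hdiv : M / q ∣ M := Nat.div_dvd_of_dvd hqM
      have hpos : 0 < M / q := Nat.div_pos (Nat.le_of_dvd hM hqM) hq.pos
      have hlt : M / q < M := Nat.div_lt_self hM hq.one_lt
      -- `4 ∣ M / q` since `q` is odd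
      have h4' : 4 ∣ M / q := by
        have hcop : Nat.Coprime 4 q := by
          have h2q : Nat.Coprime 2 q :=
            (Nat.coprime_primes Nat.prime_two hq).mpr (fun h => hq2ne h.symm)
          have : Nat.Coprime (2 ^ 2) q := Nat.Coprime.pow_left 2 h2q
          simpa using this
        have h1 : 4 ∣ q * (M / q) := by rwa [Nat.mul_div_cancel' hqM]
        exact hcop.dvd_of_dvd_mul_left h1
      obtain ⟨N, hN0, hN4, hN8, hRN, hNp, hNsq⟩ := ih (M / q) hlt hpos h4'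
        (fun h => h8 (dvd_trans h hdiv))
        (fun h => hp2 (dvd_trans h hdiv))
        (fun ℓ hℓ hℓp h => h3 ℓ hℓ hℓp (dvd_trans h hdiv))
        (hEq2 M q hM hq hqp hq2ne hq2 (h3 q hq hqp) h4 h8 hR)
      exact ⟨N, hN0, hN4, hN8, hRN, hNp, hNsq⟩

/-- an odd prime power dividing `c * M`, `c ∣ 4`, divides `M`. -/
theorem m59t_odd_pow_dvd {q k c M : ℕ} (hq : q.Prime) (hq2 : q ≠ 2) (hc : c ∣ 4)
    (h : q ^ k ∣ c * M) : q ^ k ∣ M := by
  have h2q : Nat.Coprime q 2 := (Nat.coprime_primes hq Nat.prime_two).mpr hq2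
  have h4 : Nat.Coprime (q ^ k) (2 ^ 2) := Nat.Coprime.pow k 2 h2q
  have hcop : Nat.Coprime (q ^ k) c := Nat.Coprime.coprime_dvd_right hc (by simpa using h4)
  exact hcop.dvd_of_dvd_mul_left h

/-- **PHASE I, second form ([NORM] with Sink B only at levels divisible by `4`).** -/
theorem m59t_norm4_of (hBo : m59t_Eq2Odd_stmt) (hBt : m59t_Eq2Two_stmt) (hA : m59t_LowerP_stmt)
    (p : ℕ) (hp : p = 3 ∨ p = 5) (W : WeierstrassCurve ℤ) (hΔ : W.Δ ≠ 0)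
    (hW : W.IsSemistableModel) (hirr : W.ModRepIsIrreducible p)
    (M₀ : ℕ) (hM₀pos : 0 < M₀) (hres₀ : W.IsResiduallyModularOfLevel p M₀)
    (hM₀ : ¬ p ^ 2 ∣ M₀) (hM₀3 : ∀ q : ℕ, q.Prime → q ≠ p → ¬ q ^ 3 ∣ M₀) :
    ∃ N₁ : ℕ, Squarefree N₁ ∧ (p ∣ N₁ → ¬ m59t_flat W p p) ∧
      W.IsResiduallyModularOfLevel p N₁ := by
  have hpp : p.Prime := by rcases hp with rfl | rfl <;> norm_num
  have hp2 : p ≠ 2 := by rcases hp with rfl | rfl <;> norm_num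
  -- Step 0: `4 ∥ M`
  have h8M₀ : ¬ 8 ∣ M₀ := fun h => hM₀3 2 Nat.prime_two (Ne.symm hp2) (by simpa using h)
  obtain ⟨c, hc4, hcpos, h4L, h8L⟩ : ∃ c : ℕ, c ∣ 4 ∧ 0 < c ∧ 4 ∣ c * M₀ ∧ ¬ 8 ∣ c * M₀ := by
    by_cases h4 : 4 ∣ M₀
    · exact ⟨1, by norm_num, by norm_num, by simpa using h4, by simpa using h8M₀⟩
    · by_cases h2 : 2 ∣ M₀
      · exact ⟨2, by norm_num, by norm_num, by omega, by omega⟩
      · exact ⟨4, by norm_num, by norm_num, by omega, by omega⟩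
  have hLpos : 0 < c * M₀ := Nat.mul_pos hcpos hM₀pos
  have hRL : W.IsResiduallyModularOfLevel p (c * M₀) :=
    m59t_up W p M₀ (c * M₀) hM₀pos (dvd_mul_left M₀ c) hLpos.ne' hres₀
  have hLp : ¬ p ^ 2 ∣ c * M₀ := fun h => hM₀ (m59t_odd_pow_dvd hpp hp2 hc4 h)
  have hL3 : ∀ q : ℕ, q.Prime → q ≠ p → ¬ q ^ 3 ∣ c * M₀ := by
    intro q hq hqp h
    by_cases hq2 : q = 2
    · subst hq2
      exact h8L (by simpa using h)
    · exact hM₀3 q hq hqp (m59t_odd_pow_dvd hq hq2 hc4 h)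
  -- Step 1: odd squares
  obtain ⟨M₁, hM₁pos, h4M₁, h8M₁, hR₁, hM₁p, hM₁sq⟩ :=
    m59t_comb_sqfree4 p (fun M => W.IsResiduallyModularOfLevel p M)
      (fun M q hM hq hqp hq2 hqsq hq3 h4 h8 h =>
        hBo p hp W hΔ hW hirr M q hM hq hqp hq2 hqsq hq3 h4 h8 h)
      (c * M₀) hLpos h4L h8L hLp hL3 hRL
  -- `M₁ = 2 M'`, `M'` squarefree and even
  obtain ⟨M', rfl⟩ : ∃ M', M₁ = 2 * M' := ⟨M₁ / 2, by omega⟩
  have h2M' : 2 ∣ M' := by omega
  have h4M' : ¬ 4 ∣ M' := by omega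
  have hM'pos : 0 < M' := by omega
  have hsqM' : Squarefree M' := by
    rw [Nat.squarefree_iff_prime_squarefree]
    intro q hq hqq
    have hqq' : q ^ 2 ∣ 2 * M' := by rw [pow_two]; exact dvd_mul_of_dvd_right hqq 2
    by_cases hq2 : q = 2
    · subst hq2
      exact h4M' (by simpa using hqq)
    · by_cases hqp : q = p
      · subst hqp
        exact hM₁p hqq'
      · exact hM₁sq q hq hqp hq2 hqq'
  -- Step 2: a Dirichlet prime `r ≡ 11 (12)`, `r ≢ 1 (p)`, `r > p M'`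
  obtain ⟨r, hrgt, hr, hr12, hrp⟩ : ∃ r : ℕ, p * M' < r ∧ r.Prime ∧ r % 12 = 11 ∧ r % p ≠ 1 := by
    rcases hp with rfl | rfl
    · obtain ⟨r, hgt, hr, hmod⟩ := Nat.forall_exists_prime_gt_and_modEq (3 * M')
        (q := 12) (a := 11) (by norm_num) (by norm_num)
      have h12 : r % 12 = 11 := by
        have := hmod
        unfold Nat.ModEq at this
        simpa using this
      exact ⟨r, hgt, hr, h12, by omega⟩
    · obtain ⟨r, hgt, hr, hmod⟩ := Nat.forall_exists_prime_gt_and_modEq (5 * M')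
        (q := 60) (a := 23) (by norm_num) (by norm_num)
      have h60 : r % 60 = 23 := by
        have := hmod
        unfold Nat.ModEq at this
        simpa using this
      exact ⟨r, hgt, hr, by omega, by omega⟩
  have hrM' : ¬ r ∣ M' := fun h => by
    have h1 : r ≤ M' := Nat.le_of_dvd hM'pos h
    have h2 : M' ≤ p * M' := Nat.le_mul_of_pos_left M' hpp.pos
    omega
  have hrp' : r ≠ p := fun h => by
    have h2 : p ≤ p * M' := Nat.le_mul_of_pos_right p hM'pos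
    omega
  have hsq2 : Squarefree (M' * r) := by
    rw [Nat.squarefree_mul_iff]
    exact ⟨Nat.coprime_comm.mp ((Nat.Prime.coprime_iff_not_dvd hr).mpr hrM'), hsqM',
      hr.prime.squarefree⟩
  have hR₂ : W.IsResiduallyModularOfLevel p (2 * (M' * r)) :=
    m59t_up W p (2 * M') (2 * (M' * r)) hM₁pos ⟨r, by ring⟩
      (Nat.mul_pos (by norm_num) (Nat.mul_pos hM'pos hr.pos)).ne' hR₁
  -- Step 3: (E-2²)
  have hR₃ : W.IsResiduallyModularOfLevel p (M' * r) :=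
    hBt p hp W hΔ hW hirr (M' * r) r hsq2 (dvd_mul_of_dvd_left h2M' r) hr hr12 hrp hrp'
      (dvd_mul_left r M') hR₂
  -- Step 4: the prime p
  by_cases hfl : p ∣ M' * r ∧ m59t_flat W p p
  · refine ⟨M' * r / p, hsq2.squarefree_of_dvd (Nat.div_dvd_of_dvd hfl.1), ?_,
      hA p hp W hΔ hW hirr hfl.2 (M' * r) hsq2 (dvd_mul_of_dvd_left h2M' r) hfl.1 hR₃⟩
    intro hpd
    exfalso
    obtain ⟨d, hd⟩ := hpd
    have h1 : M' * r = p * (M' * r / p) := (Nat.mul_div_cancel' hfl.1).symm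
    have h2 : p * p ∣ M' * r := ⟨d, by rw [h1, hd]; ring⟩
    exact (Nat.squarefree_iff_prime_squarefree.mp hsq2) p hpp h2
  · refine ⟨M' * r, hsq2, ?_, hR₃⟩
    intro hpd hflat
    exact hfl ⟨hpd, hflat⟩

/-- **The frozen S59 from the boxes (second form) and S58 (on main).** -/
theorem m59t_result_of4 (hBo : m59t_Eq2Odd_stmt) (hBt : m59t_Eq2Two_stmt)
    (hA : m59t_LowerP_stmt) (hE : m59t_Eng_stmt)
    (p : ℕ) (hp : p = 3 ∨ p = 5)
    (W : WeierstrassCurve ℤ) (hΔ : W.Δ ≠ 0) (hW : W.IsSemistableModel)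
    (hirr : W.ModRepIsIrreducible p)
    (M₀ : ℕ) [NeZero M₀] (hres₀ : W.IsResiduallyModularOfLevel p M₀)
    (hM₀ : ¬ p ^ 2 ∣ M₀)
    (hM₀3 : ∀ q : ℕ, q.Prime → q ≠ p → ¬ q ^ 3 ∣ M₀) :
    Mlc1IsModularModelOfExactConductorLevel W := by
  have hpp : p.Prime := by rcases hp with rfl | rfl <;> norm_num
  have : Fact p.Prime := ⟨hpp⟩
  have hp2 : p ≠ 2 := by rcases hp with rfl | rfl <;> norm_num
  obtain ⟨N₁, hsq, hpN, hR⟩ := m59t_norm4_of hBo hBt hA p hp W hΔ hW hirr M₀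
    (Nat.pos_of_ne_zero (NeZero.ne M₀)) hres₀ hM₀ hM₀3
  obtain ⟨N, hmod, hp2N, hbad, hN3⟩ := hE p hp W hΔ hW hirr N₁ hsq hpN hR
  have hcond : W.IsModularModelOfLevel W.conductorLevel :=
    Fermat.Agent.S58.result W hW N p hp2 hirr hp2N hmod hbad hN3
  exact ⟨W.conductorLevel, W.conductorLevel_pos, W.squarefree_conductorLevel,
    fun q hq => W.prime_dvd_conductorLevel_iff hΔ hq, hcond⟩

/-- the first form implies the second (so either set of Sink B seams can be used). -/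
theorem m59t_eq2odd_of_eq2 (h : m59t_Eq2_stmt) : m59t_Eq2Odd_stmt :=
  fun p hp W hΔ hW hirr M q hM hq hqp _ hq2 hq3 _ _ hR =>
    h p hp W hΔ hW hirr M q hM hq hqp hq2 hq3 hR

/-- the restricted box B of Sink B (`m59sb_Eq2R_stmt`, SinkB/Seams.lean, spelled out: odd `q` only
at levels divisible by `4`) gives the odd seam … -/
theorem m59t_eq2odd_of_R
    (h : ∀ p : ℕ, p = 3 ∨ p = 5 → ∀ W : WeierstrassCurve ℤ, W.Δ ≠ 0 → W.IsSemistableModel →
      W.ModRepIsIrreducible p →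
      ∀ M q : ℕ, 0 < M → q.Prime → q ≠ p → q ^ 2 ∣ M → ¬ q ^ 3 ∣ M → (q ≠ 2 → 4 ∣ M) →
        W.IsResiduallyModularOfLevel p M → W.IsResiduallyModularOfLevel p (M / q)) :
    m59t_Eq2Odd_stmt :=
  fun p hp W hΔ hW hirr M q hM hq hqp _ hq2 hq3 h4 _ hR =>
    h p hp W hΔ hW hirr M q hM hq hqp hq2 hq3 (fun _ => h4) hR

/-- … and the seam at `q = 2`. -/
theorem m59t_eq2two_of_R
    (h : ∀ p : ℕ, p = 3 ∨ p = 5 → ∀ W : WeierstrassCurve ℤ, W.Δ ≠ 0 → W.IsSemistableModel →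
      W.ModRepIsIrreducible p →
      ∀ M q : ℕ, 0 < M → q.Prime → q ≠ p → q ^ 2 ∣ M → ¬ q ^ 3 ∣ M → (q ≠ 2 → 4 ∣ M) →
        W.IsResiduallyModularOfLevel p M → W.IsResiduallyModularOfLevel p (M / q)) :
    m59t_Eq2Two_stmt := by
  intro p hp W hΔ hW hirr M' r hsq h2 _ _ _ _ _ hR
  have hp2 : (2 : ℕ) ≠ p := by rcases hp with rfl | rfl <;> norm_num
  have hM'pos : 0 < M' := Nat.pos_of_ne_zero hsq.ne_zero
  have h4 : ¬ 4 ∣ M' := fun h4 => by
    have h22 : 2 * 2 ∣ M' := by simpa using h4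
    exact (by norm_num : (2 : ℕ) ≠ 1) (Nat.isUnit_iff.mp (hsq 2 h22))
  have h := h p hp W hΔ hW hirr (2 * M') 2 (by omega) Nat.prime_two hp2 (by omega) (by omega)
    (fun h => absurd rfl h) hR
  rwa [Nat.mul_div_cancel_left M' (by norm_num : 0 < 2)] at h

end Fermat.Agent.M59
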