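import Fermat.Agent.M59.Top.CoreSeams
import Fermat.Agent.M59.D.ChainPatch

/-!
M59 / [CORE], LEVEL 2 (helper25, deputy; ruling #48, table #5259 row E5).  Prefix `m59d_` (data of
block [D']) and `m59e_` (engine wiring).

`m59e_core_of : m59d_ChainInput_stmt Peu → m59e_Core_stmt Peu`  (PROVED).

* `m59d_ChainData 𝒪 lam T0 x₂` : the argument list of `m59d_chain_patch` (block [D'], M59/D),
  bundled in universe `0`: the rings `S = S_∞`, `R = R_∞` with their instances, the chain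
  `d 0, …, d m` of ranks, the ideals `𝔞`, `𝔟 n`, the action `j` of the base ring `T0` on the top
  module `M_∅(B')`, the fixed data `θ, u, ν, β, γ, r, s`, the level data
  `Lv n : m59d_ChainLevel …` for every `n` (block [E']), the dimension bound (B1), the base
  hypothesis `hbase` ((B2); `m59d_hbase_of_irr` in the exact case `𝔠 = ⊥`, (SUPP-fl) of finding
  #5308 (4) on the flat side of case (III)) and the points with (LOC) (`hpts`, block (LOC)/[B]).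
* `m59d_cd_ker` : `m59d_chain_patch` on a bundled datum: `ker j ≤ ker x₂`.
* `m59d_ChainInput_stmt Peu` **[CHAIN-INPUT]**: under the hypotheses of `m59e_Core_stmt Peu` there
  are a finite set `S' ⊇ S`, a squarefree level `N` with primes in `S'`, a base ring `T0` with a
  point `x₂ : T0 → 𝒪` (`T0 = T₀' ⊆ T_∅(B') × 𝒪`, `x₂` the second projection), a
  `m59d_ChainData 𝒪 lam T0 x₂`, and the Hecke action `act` of `heckeAlgebra N 2 ↑S'` on the top
  module, such that every `T_ℓ` (`ℓ ∤ N`, `ℓ ∉ S'`) is `j t` for some `t : T0` with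
  `x₂ t = a_ℓ(W)`.
* the proof of `m59e_core_of`: `ker j ≤ ker x₂` makes `x₂` factor through `range j ⊇ range act`
  (`m59e_act_mem_range`: the Hecke ring is generated by the `T_ℓ`, all primes of `N` being in `S'`),
  which gives `χ` with `χ (T_ℓ) = a_ℓ(W)` (`m59e_chi_of_ker`); `m59e_IsTate.frob` gives
  `twt_CompatAdic χ ρ`.
-/

set_option autoImplicit false
set_option linter.style.haveILetI false
set_option linter.unusedSectionVars false

open Polynomial CuspForm IsLocalRing WeierstrassCurve Fermat.Agent.TW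

namespace Fermat.Agent.M59

/-- **the input of block [D']** (argument list of `m59d_chain_patch`), bundled, in universe `0`. -/
structure m59d_ChainData (𝒪 : Type) [CommRing 𝒪] (lam : 𝒪) (T0 : Type) [CommRing T0]
    [Algebra 𝒪 T0] (x₂ : T0 →+* 𝒪) : Type 1 where
  /-- `S_∞` -/
  S : Type
  [instS : CommRing S]
  [algS : Algebra 𝒪 S]
  [domS : IsDomain S]
  [noethS : IsNoetherianRing S]
  [locS : IsLocalRing S]
  [complS : IsAdicComplete (maximalIdeal S) S]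
  /-- `R_∞` -/
  R : Type
  [instR : CommRing R]
  [algR : Algebra 𝒪 R]
  [noethR : IsNoetherianRing R]
  [locR : IsLocalRing R]
  [complR : IsAdicComplete (maximalIdeal R) R]
  complT0 : IsAdicComplete (Ideal.span {algebraMap 𝒪 T0 lam}) T0
  /-- the number of steps of the walk -/
  m : ℕ
  /-- the ranks of the patched modules `M_∞(T_k)` -/
  d : Fin (m + 1) → ℕ
  /-- the ranks of the new quotients -/
  e : Fin m → ℕ
  /-- the nilpotence exponent of the `p`-step (`X - s` is nilpotent of this order; any value at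
  the steps `l ≠ p`, where `X = α s`) -/
  EE : ℕ
  hd0 : 0 < d 0
  hS : ∀ k, Finite (S ⧸ maximalIdeal S ^ k)
  hR : ∀ k, Finite (R ⧸ maximalIdeal R ^ k)
  hT0 : ∀ k, Finite (T0 ⧸ (Ideal.span {algebraMap 𝒪 T0 lam}) ^ k)
  hlamS : algebraMap 𝒪 S lam ∈ maximalIdeal S
  hlamS0 : algebraMap 𝒪 S lam ≠ 0
  /-- the augmentation ideal -/
  𝔞 : Ideal S
  /-- the ideals `((1 + y_i) ^ p ^ n - 1)_i` -/
  𝔟 : ℕ → Ideal S
  h𝔟𝔞 : ∀ n, 𝔟 n ≤ 𝔞
  h𝔟 : ∀ n, 𝔟 n ≤ maximalIdeal S ^ n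
  /-- the action of `T0` on the top module `M_∅(B')` -/
  j : T0 →+* Matrix (Fin (d (Fin.last m))) (Fin (d (Fin.last m))) (S ⧸ 𝔞)
  /-- the structure map `S_∞ → T0` -/
  θ : S →+* T0
  hθalg : ∀ a : 𝒪, θ (algebraMap 𝒪 S a) = algebraMap 𝒪 T0 a
  hθ : ∀ t ∈ 𝔞, x₂ (θ t) = 0
  /-- index of the unramified relations -/
  ι : Type
  [finι : Finite ι]
  /-- index of the fixed local coordinates -/
  κ : Type
  /-- index of the generators of `T0` -/
  K : Type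
  [finK : Finite K]
  /-- generators of the unramified ideal at `B'` -/
  u : ι → R
  /-- the precision to which `u i` is killed at finite level (`⊥`: exactly) -/
  𝔠 : ι → Ideal R
  /-- the fixed local coordinates -/
  ν : κ → R
  /-- their images in `T0` -/
  β : κ → T0
  /-- generators of `T0` over `S_∞` -/
  γ : K → T0
  /-- `r_l = (tr Φ_l)² - (l + 1)²` -/
  r : Fin m → R
  /-- `s_l = (l + 1) - ε tr Φ_l` -/
  s : Fin m → R
  hgen : Subring.closure (Set.range γ ∪ Set.range θ) = ⊤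
  /-- the level data (block [E']) -/
  Lv : ∀ n, m59d_ChainLevel 𝒪 S R T0 d e EE 𝔞 (𝔟 n) (h𝔟𝔞 n) j θ u 𝔠 ν β γ r s
  /-- (B1) -/
  hdim : ringKrullDim R ≤ ringKrullDim S
  /-- (B2): a prime of coheight `≥ dim S_∞` containing some `w ≡ u mod 𝔠` lies under every point
  of the unramified locus -/
  hbase : ∀ w : ι → R, (∀ i, w i - u i ∈ 𝔠 i) → ∀ P : Ideal R, P.IsPrime → (∀ i, w i ∈ P) →
    ringKrullDim S ≤ ringKrullDim (R ⧸ P) → ∀ y0 : R →+* 𝒪, (∀ i, y0 (u i) = 0) →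
      P ≤ RingHom.ker y0
  /-- the points `y_0, …, y_m = x` of the walk with (LOC) -/
  hpts : ∀ x : R →+* 𝒪, (∀ c, x (ν c) = x₂ (β c)) →
    (∀ a : 𝒪, x (algebraMap 𝒪 R a) = x₂ (algebraMap 𝒪 T0 a)) →
    ∃ y : Fin (m + 1) → (R →+* 𝒪), y (Fin.last m) = x ∧ (∀ i, y 0 (u i) = 0) ∧
      (∀ k : Fin m, y k.castSucc (s k) = 0) ∧
      ∀ (k : Fin m) (P : Ideal R), P ∈ minimalPrimes R →
        ringKrullDim S ≤ ringKrullDim (R ⧸ P) → algebraMap 𝒪 R lam ∉ P → r k ∈ P →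
        P ≤ RingHom.ker (y k.castSucc) → P ≤ RingHom.ker (y k.succ)

attribute [instance] m59d_ChainData.instS m59d_ChainData.algS m59d_ChainData.domS
  m59d_ChainData.noethS m59d_ChainData.locS m59d_ChainData.complS
  m59d_ChainData.instR m59d_ChainData.algR m59d_ChainData.noethR m59d_ChainData.locR
  m59d_ChainData.complR m59d_ChainData.finK m59d_ChainData.finι

/-- **[D'] on a bundled datum**: the point `x₂` factors through the action on the top module. -/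
theorem m59d_cd_ker {𝒪 : Type} [CommRing 𝒪] [IsDomain 𝒪] {lam : 𝒪} {T0 : Type} [CommRing T0]
    [Algebra 𝒪 T0] {x₂ : T0 →+* 𝒪} (D : m59d_ChainData 𝒪 lam T0 x₂) :
    RingHom.ker D.j ≤ RingHom.ker x₂ := by
  haveI := D.complT0
  exact m59d_chain_patch (lam := lam) D.hS D.hR D.hT0 D.hlamS D.hlamS0 D.hθalg D.hd0 D.𝔟 D.h𝔟𝔞 D.h𝔟
    D.Lv x₂ D.hθ D.hgen D.hdim D.hbase D.hpts

/-- **[CHAIN-INPUT]**: what the blocks [C-gen], (LOC)/[B], [E'], [R_p-norm], [A'] deliver together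
to block [D']. -/
def m59d_ChainInput_stmt (Peu : m59e_PeuPred) : Prop :=
  ∀ (p : ℕ) [Fact p.Prime], p = 3 ∨ p = 5 → ∀ W : WeierstrassCurve ℤ, W.Δ ≠ 0 →
    W.IsSemistableModel →
  ∀ (𝒪 : Type) [CommRing 𝒪] [IsDomain 𝒪] [IsDiscreteValuationRing 𝒪]
    [IsAdicComplete (maximalIdeal 𝒪) 𝒪] [Finite (ResidueField 𝒪)] [CharZero 𝒪],
    (p : 𝒪) ∈ maximalIdeal 𝒪 →
  ∀ ρ : GaloisRepAdic 𝒪, m59e_IsTate p W ρ →
  ∀ (S : Finset ℕ) (N₁ : ℕ), m59e_IsBadSet W p S → Squarefree N₁ →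
    (∀ ℓ : ℕ, ℓ.Prime → ℓ ∣ N₁ → ℓ ∈ S) →
    m59e_Occ p W S N₁ →
    (∀ q : ℕ, q.Prime → q ≠ p → q ∣ N₁ → ¬ ρ.residual.IsUnramifiedAt q) →
    (p ∣ N₁ → ¬ m59e_Occ p W S (N₁ / p)) →
    (p ∣ N₁ → ¬ Peu (ResidueField 𝒪) ρ.residual p) →
    (W.IsGoodPrimeFor p → ¬ p ∣ N₁) →
    ∃ (S' : Finset ℕ) (N : ℕ) (_ : NeZero N),
      S ⊆ S' ∧ Squarefree N ∧ (∀ ℓ : ℕ, ℓ.Prime → ℓ ∣ N → ℓ ∈ S') ∧
      ∃ (lam : 𝒪) (T0 : Type) (_ : CommRing T0) (_ : Algebra 𝒪 T0) (x₂ : T0 →+* 𝒪)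
        (D : m59d_ChainData 𝒪 lam T0 x₂)
        (act : heckeAlgebra N 2 (↑S' : Set ℕ) →+*
          Matrix (Fin (D.d (Fin.last D.m))) (Fin (D.d (Fin.last D.m))) (D.S ⧸ D.𝔞)),
        ∀ (ℓ : ℕ) (hℓ : ℓ.Prime) (hℓN : ¬ ℓ ∣ N) (hℓS : ℓ ∉ (↑S' : Set ℕ)),
          ∃ t : T0, D.j t = act (heckeAlgebra.T hℓ hℓN hℓS) ∧
            x₂ t = ((W.apOfModel ℓ : ℤ) : 𝒪)

/-- the Hecke ring away from `S' ⊇ {ℓ ∣ N}` is generated by the `T_ℓ`: a ring hom out of it whose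
values at the `T_ℓ` lie in the range of `j` has its whole range there. -/
theorem m59e_act_mem_range {N : ℕ} [NeZero N] {S' : Finset ℕ}
    (hNS : ∀ ℓ : ℕ, ℓ.Prime → ℓ ∣ N → ℓ ∈ S') {A B : Type*} [CommRing A] [Ring B] (j : A →+* B)
    (act : heckeAlgebra N 2 (↑S' : Set ℕ) →+* B)
    (h : ∀ (ℓ : ℕ) (hℓ : ℓ.Prime) (hℓN : ¬ ℓ ∣ N) (hℓS : ℓ ∉ (↑S' : Set ℕ)),
      act (heckeAlgebra.T hℓ hℓN hℓS) ∈ j.range) :
    ∀ T, act T ∈ j.range := by
  rintro ⟨T, hT⟩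
  induction hT using Algebra.adjoin_induction with
  | mem x hx =>
    rcases hx with ⟨ℓ, hℓ, hℓN, hℓS, rfl⟩ | ⟨q, hqN, hq, hqS, rfl⟩
    · exact h ℓ hℓ hℓN hℓS
    · exact absurd (Finset.mem_coe.mpr (hNS q hq hqN)) hqS
  | algebraMap r =>
    have h1 : (⟨algebraMap ℤ _ r, Subalgebra.algebraMap_mem _ r⟩ :
        heckeAlgebra N 2 (↑S' : Set ℕ)) = ((r : ℤ) : heckeAlgebra N 2 (↑S' : Set ℕ)) := by
      apply Subtype.ext
      simp
    rw [h1, map_intCast]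
    exact ⟨(r : A), map_intCast j r⟩
  | add x y hx hy ihx ihy =>
    have h1 : (⟨x + y, Subalgebra.add_mem _ hx hy⟩ : heckeAlgebra N 2 (↑S' : Set ℕ)) =
        ⟨x, hx⟩ + ⟨y, hy⟩ := rfl
    rw [h1, map_add]
    exact Subring.add_mem _ ihx ihy
  | mul x y hx hy ihx ihy =>
    have h1 : (⟨x * y, Subalgebra.mul_mem _ hx hy⟩ : heckeAlgebra N 2 (↑S' : Set ℕ)) =
        ⟨x, hx⟩ * ⟨y, hy⟩ := rfl
    rw [h1, map_mul]
    exact Subring.mul_mem _ ihx ihy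

/-- `ker j ≤ ker x₂` and `range act ≤ range j` give `χ = x₂ ∘ j⁻¹ ∘ act`. -/
theorem m59e_chi_of_ker {A B C 𝕋 : Type*} [CommRing A] [Ring B] [CommRing C] [CommRing 𝕋]
    (j : A →+* B) (x₂ : A →+* C) (hker : RingHom.ker j ≤ RingHom.ker x₂) (act : 𝕋 →+* B)
    (hact : ∀ T, act T ∈ j.range) :
    ∃ χ : 𝕋 →+* C, ∀ T t, j t = act T → χ T = x₂ t := by
  classical
  have hwd : ∀ t t' : A, j t = j t' → x₂ t = x₂ t' := by
    intro t t' h
    have h1 : t - t' ∈ RingHom.ker j := by rw [RingHom.mem_ker, map_sub, h, sub_self]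
    have h2 := hker h1
    rw [RingHom.mem_ker, map_sub, sub_eq_zero] at h2
    exact h2
  choose g hg using hact
  have hχ : ∀ T t, j t = act T → x₂ (g T) = x₂ t := fun T t ht => hwd _ _ ((hg T).trans ht.symm)
  refine ⟨{ toFun := fun T => x₂ (g T)
            map_one' := ?_
            map_mul' := ?_
            map_zero' := ?_
            map_add' := ?_ }, hχ⟩
  · rw [hχ 1 1 (by rw [map_one, map_one]), map_one]
  · intro T T'
    rw [hχ (T * T') (g T * g T') (by rw [map_mul, map_mul, hg, hg]), map_mul]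
  · rw [hχ 0 0 (by rw [map_zero, map_zero]), map_zero]
  · intro T T'
    rw [hχ (T + T') (g T + g T') (by rw [map_add, map_add, hg, hg]), map_add]

/-- **[CORE] from [CHAIN-INPUT]**: `m59d_chain_patch` + the read-off of `χ`. -/
theorem m59e_core_of (Peu : m59e_PeuPred) (hI : m59d_ChainInput_stmt Peu) :
    m59e_Core_stmt Peu := by
  intro p _ hp W hΔ hW 𝒪 _ _ _ _ _ _ hp𝒪 ρ hT S N₁ hS hN₁sq hN₁S hOcc hram hII hpeu hgood
  obtain ⟨S', N, _, hSS', hNsq, hNS', lam, T0, _, _, x₂, D, act, hact⟩ :=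
    hI p hp W hΔ hW 𝒪 hp𝒪 ρ hT S N₁ hS hN₁sq hN₁S hOcc hram hII hpeu hgood
  have hker := m59d_cd_ker D
  have hrange := m59e_act_mem_range hNS' D.j act (fun ℓ hℓ hℓN hℓS => by
    obtain ⟨t, ht, _⟩ := hact ℓ hℓ hℓN hℓS
    exact ⟨t, ht⟩)
  obtain ⟨χ, hχ⟩ := m59e_chi_of_ker D.j x₂ hker act hrange
  refine ⟨S', N, inferInstance, χ, hSS', hNsq, hNS', ?_⟩
  intro ℓ hℓ hℓN hℓS A hA σ hσ
  obtain ⟨t, ht, hx⟩ := hact ℓ hℓ hℓN hℓS
  rw [hχ _ t ht, hx]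
  have hℓS0 : ℓ ∉ S := fun h => hℓS (Finset.mem_coe.mpr (hSS' h))
  have hℓp : ℓ ≠ p := fun h => hℓS0 (h ▸ hS.1)
  have hgoodℓ : W.IsGoodPrimeFor ℓ := by
    by_contra hb
    exact hℓS0 (hS.2 ℓ hℓ hb)
  exact hT.frob ℓ hℓ hℓp hgoodℓ A hA σ hσ

end Fermat.Agent.M59
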