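import Fermat.Agent.M59.Top.CoreOf
import Fermat.Agent.M59.Top.EngZ

/-!
M59 / [CORE], LEVEL 2, ISSUE 2 (helper9, chief architect; referees #5361 / #5365).

Add-only companion of helper25's `M59/Top/CoreOf.lean` (untouched) for the coefficient-ring repair:

* `m59d_ChainInputZ_stmt Peu` **[CHAIN-INPUT], issue 2** = `m59d_ChainInput_stmt Peu` with the extra
  HYPOTHESIS `(∃ ζ : 𝒪, IsPrimitiveRoot ζ p) →` right after `(p : 𝒪) ∈ maximalIdeal 𝒪 →`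
  (the TW-level cells `m59lg_tw_level` of [Act]/[A'] need `ζ` in the coefficient ring);
* `m59e_coreZ_of : m59d_ChainInputZ_stmt Peu → m59e_CoreZ_stmt Peu`  (PROVED, the proof of
  `m59e_core_of` verbatim);
* `m59d_chainInputZ_of_chainInput` : the old seam is stronger.

THE seam of [CHAIN-inst] from now on is `m59d_ChainInputZ_stmt`.
-/

set_option autoImplicit false
set_option linter.style.haveILetI false
set_option linter.unusedSectionVars false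

open Polynomial CuspForm IsLocalRing WeierstrassCurve Fermat.Agent.TW

namespace Fermat.Agent.M59

/-- **[CHAIN-INPUT], issue 2**: the coefficient ring contains a primitive `p`-th root of unity. -/
def m59d_ChainInputZ_stmt (Peu : m59e_PeuPred) : Prop :=
  ∀ (p : ℕ) [Fact p.Prime], p = 3 ∨ p = 5 → ∀ W : WeierstrassCurve ℤ, W.Δ ≠ 0 →
    W.IsSemistableModel →
  ∀ (𝒪 : Type) [CommRing 𝒪] [IsDomain 𝒪] [IsDiscreteValuationRing 𝒪]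
    [IsAdicComplete (maximalIdeal 𝒪) 𝒪] [Finite (ResidueField 𝒪)] [CharZero 𝒪],
    (p : 𝒪) ∈ maximalIdeal 𝒪 → (∃ ζ : 𝒪, IsPrimitiveRoot ζ p) →
  ∀ ρ : GaloisRepAdic 𝒪, m59e_IsTate p W ρ →
  ∀ (S : Finset ℕ) (N₁ : ℕ), m59e_IsBadSet W p S → Squarefree N₁ →
    (∀ ℓ : ℕ, ℓ.Prime → ℓ ∣ N₁ → ℓ ∈ S) →
    m59e_Occ p W S N₁ →
    (∀ q : ℕ, q.Prime → q ≠ p → q ∣ N₁ → ¬ ρ.residual.IsUnramifiedAt q) →
    (p ∣ N₁ → ¬ m59e_Occ p W S (N₁ / p)) →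
    (p ∣ N₁ → ¬ Peu (ResidueField 𝒪) ρ.residual p) →
    (W.IsGoodPrimeFor p → ¬ p ∣ N₁) →
    ∃ (S' : Finset ℕ) (N : ℕ) (_ : NeZero N),
      S ⊆ S' ∧ Squarefree N ∧ (∀ ℓ : ℕ, ℓ.Prime → ℓ ∣ N → ℓ ∈ S') ∧
      ∃ (lam : 𝒪) (T0 : Type) (_ : CommRing T0) (_ : Algebra 𝒪 T0) (x₂ : T0 →+* 𝒪)
        (D : m59d_ChainData 𝒪 lam T0 x₂)
        (act : heckeAlgebra N 2 (↑S' : Set ℕ) →+*
          Matrix (Fin (D.d (Fin.last D.m))) (Fin (D.d (Fin.last D.m))) (D.S ⧸ D.𝔞)),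
        ∀ (ℓ : ℕ) (hℓ : ℓ.Prime) (hℓN : ¬ ℓ ∣ N) (hℓS : ℓ ∉ (↑S' : Set ℕ)),
          ∃ t : T0, D.j t = act (heckeAlgebra.T hℓ hℓN hℓS) ∧
            x₂ t = ((W.apOfModel ℓ : ℤ) : 𝒪)

/-- the old seam is stronger. -/
theorem m59d_chainInputZ_of_chainInput (Peu : m59e_PeuPred) (h : m59d_ChainInput_stmt Peu) :
    m59d_ChainInputZ_stmt Peu := by
  intro p _ hp W hΔ hW 𝒪 _ _ _ _ _ _ hp𝒪 _ ρ hT S N₁ hS hN₁sq hN₁S hOcc hram hII hpeu hgood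
  exact h p hp W hΔ hW 𝒪 hp𝒪 ρ hT S N₁ hS hN₁sq hN₁S hOcc hram hII hpeu hgood

/-- **[CORE] (issue 2) from [CHAIN-INPUT] (issue 2)**: `m59d_chain_patch` + the read-off of `χ`. -/
theorem m59e_coreZ_of (Peu : m59e_PeuPred) (hI : m59d_ChainInputZ_stmt Peu) :
    m59e_CoreZ_stmt Peu := by
  intro p _ hp W hΔ hW 𝒪 _ _ _ _ _ _ hp𝒪 hζ ρ hT S N₁ hS hN₁sq hN₁S hOcc hram hII hpeu hgood
  obtain ⟨S', N, _, hSS', hNsq, hNS', lam, T0, _, _, x₂, D, act, hact⟩ :=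
    hI p hp W hΔ hW 𝒪 hp𝒪 hζ ρ hT S N₁ hS hN₁sq hN₁S hOcc hram hII hpeu hgood
  have hker := m59d_cd_ker D
  have hrange := m59e_act_mem_range hNS' D.j act (fun ℓ hℓ hℓN hℓS => by
    obtain ⟨t, ht, _⟩ := hact ℓ hℓ hℓN hℓS
    exact ⟨t, ht⟩)
  obtain ⟨χ, hχ⟩ := m59e_chi_of_ker D.j x₂ hker act hrange
  refine ⟨S', N, inferInstance, χ, hSS', hNsq, hNS', ?_⟩
  intro ℓ hℓ hℓN hℓS A hA σ hσ
  obtain ⟨t, ht, hx⟩ := hact ℓ hℓ hℓN hℓS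
  rw [hχ _ t ht, hx]
  have hℓS0 : ℓ ∉ S := fun h => hℓS (Finset.mem_coe.mpr (hSS' h))
  have hℓp : ℓ ≠ p := fun h => hℓS0 (h ▸ hS.1)
  have hgoodℓ : W.IsGoodPrimeFor ℓ := by
    by_contra hb
    exact hℓS0 (hS.2 ℓ hℓ hb)
  exact hT.frob ℓ hℓ hℓp hgoodℓ A hA σ hσ

end Fermat.Agent.M59
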