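import Fermat.Agent.M59.Top.NormOf4
import Fermat.Agent.M59.Top.Chain.Seams
import Fermat.Agent.M59.Top.LinkSeams
import Fermat.Agent.M59.SinkB.WireC
import Fermat.Agent.M59.SinkB.G12.Asm
import Fermat.Agent.M59.SinkB.E223.Core
import Fermat.Agent.M59.SinkB.E225.Closed
import Fermat.Agent.M59.SinkA.Seams
import Fermat.Agent.M59.SinkA.BLR
import Fermat.Agent.M59.SinkA.APeuMult
import Fermat.Agent.M59.SinkA.Closed
import Fermat.Agent.M59.G5.Closed
import Fermat.Agent.M59.IO.Entry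
import Fermat.Agent.M59.IO.Exit0
import Fermat.Agent.M59.LG.EntryExt
import Fermat.Agent.M59.LG.Link
import Fermat.Agent.M59.LG.ExitRes
import Fermat.Agent.M59.Mazur.Closed3
import Fermat.Agent.M59.Mazur.MZ32.NRLower
import Fermat.Agent.M59.Hesse2.GeoTwoFive
import Fermat.Agent.M59.KumConv.DictRp
import Fermat.Agent.M59.S38g.Ord.Top
import Fermat.Agent.M59.S38g.Ord.CTop.PatchLv
import Fermat.Agent.M59.Top.Chain3.Frame3
import Fermat.Agent.M59.Top.EngS
import Fermat.Agent.M59.G5.OrdS.Closed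
import Fermat.Agent.M59.Hesse2.Res3.Geo32rClosed
import Fermat.Agent.M59.Top.Chain.SysClosed
import Fermat.Agent.M59.SinkB.G12.WireCU
import Fermat.Agent.M59.SinkB.Eis.Main
import Fermat.Agent.M59.Top.Chain3.Frame3S
import Fermat.Agent.M59.Top.Chain3.LvSys3
import Fermat.Agent.M59.Top.Chain.SysClosed3
import Fermat.Agent.M59.SinkB.Tor.FinalTau
import Fermat.Agent.M59.SinkB.Delta.WrapD
import Fermat.Agent.M59.SinkB.Tor.FinalEx2
import Fermat.Agent.M59.SinkB.Tor.TauInv2Comp

/-!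
M59 / TOP: THE MASTER TABLE AS A LEAN THEOREM (helper9, chief architect; ruling #48).
Prefix `m59t_`.  ISSUE 15 = THE PROOF OF S59.

`m59t_final_of` : the frozen S59 from the CURRENT LEAF SEAMS of all boxes (every hypothesis is a
`_stmt` Prop of a landed file; each has an owner in the master table).  This file is re-issued
whenever a box lands a deeper cut or closes a leaf; when its list of hypotheses is empty, it is the
proof of S59.  The predicate of the engine is now FIXED: `Peu := m59rp_Peu` (helper13, [R_p-norm]).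

CLOSED (theorems, no longer hypotheses):
* [ENTRY-W] `m59io_entry`, [EXIT-0] `m59io_exit0` (helper18);
* [ENTRY-ext] `m59lg_entryExt`, [LINK] `m59lg_link`, [IRR-W] `m59lg_irrW`, [EXIT-RES]
  `m59lg_exitRes`, [UNR-ODD] `m59lg_unrOdd` (helper2);
* **[G5] COMPLETELY**: `m59g_G5z_closed` (helper29, helper6, helper23);
* [MAZUR]: [J-UNR], [GEO] at `q` odd COMPLETELY (`p = 5`: main's cells; `p = 3`, even level:
  `m59mz_geoThreeEven`, helper16 + helper11 + helper20), [COPY], [LEVEL-δ] (helper16, inside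
  `m59mz_mazur_of4`); **[GEO-52] `m59h2_geoTwoFive`** (the Hesse port: helper28 + helper29);
  [MZ-32] case (H) `m59m32_threeTwoH` = [NR-LOWER] `m59m32_lower_nr` (helper23); **[MZ-32] case (R)
  `m59h3c_threeTwoR`** = [GEO-32r] (the Hesse port at exponent `3`: (E2-ord) by the exponent-27
  device, helper5 + helper26; (N1) `m59m32_N1`, helper23 + referees helper12/helper27; recut weights
  helper28; wiring helper16): **[MAZUR] COMPLETELY, `m59h3c_mazur`**;
* [HARD] flat mode COMPLETELY: `m59m_machine` (helper14, helper21, helper5), `m59m_rigidifier`,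
  `m59m_ramN`; [RO-g] COMPLETELY (`m59mz_geoPowThreeEven`, helper16); ordinary mode cut to the
  strict-ordinary machine `m59mo_hard_of5` (helper14); (L2) [TRES-DICT] `m59kc_tresDict_rp`
  (helper6); **(L1) [C-top-ord] `m59moc_patchLv_closed`** (helper6 + helper21 + helper14):
  **[HARD] COMPLETELY** (given [LOW-core] and [MAZUR]);
* **Sink A COMPLETELY**: [BLR-W] `m59sa_blr`, [GEO-LOW] `m59sa_geoLow`, [LOWER-P] `m59sa_lowerP`
  (helper20, helper11), [A-PEU] `m59sam_apeu`, **[DICT] `m59kc_peuDict_rp`** (helper6, helper13);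
* Sink B: **(G1) [EIS] `m59ei_eis_stmt`** (helper18); **(G2') [DELTA-C] `m59dlw_deltaC2`** (the wrap:
  helper18, on helper17's `m59dl_mainCQ` and the inner seams [RESTR] helper1, [PDIV-C] helper8 +
  helper3, [RES-DESC] helper22, [HECKE-UNIT] helper18); (G12) assembly `m59g12_G12c_of` (helper1),
  common-level re-wire `m59g12u_eq2odd_of_leavesU` (helper29); [PULL-API] (helper15, inside
  `m59sb_eq2odd_of_cells_c`), [E22-5] `m59e5_main` (helper23 + helper29), **[E22-3]
  `m59e3_eq2two3`** (helper5, helper22: the `S₃`-route of helper27) — **Eq2Two COMPLETELY**;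
* **[CORE] COMPLETELY**: the concrete frame of [CHAIN-inst] `m59ci_chainInput_of` (helper25; (B1),
  (B2), [NZ], hpts helper4 + helper26); cases (d0)/(II) `m59ci_level_rp` (helper25; [CI-PAIR] +
  [CI-COT] cells helper21, [CI-U]/[CI-ACT] helper3/helper24, [E'] helper4 + helper26 + helper22,
  [P-STEP] helper10, [R_p-norm] helper13 + helper24 + helper10; referee helper12); **case (III)
  `m59ci_caseIII_rp`** = [CI3-SYS] `m59ci_sys3_rp` (helper25 + helper26 + helper10 + helper21 +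
  helper13: `ρ_W` strictly ordinary at a bad `p` by (O3) `m59gd_G5zS`, helper6 + helper13, threaded
  by `M59/Top/EngS.lean`; frame of `R_p` with the `p`-step, `m59ci3S_caseIII_of`,
  `m59ci3S_level_of_sysStmt`; referee helper12 ref59/ref60/ref61).

ISSUE 15 = NO LEAF: **`m59t_final` IS THE FROZEN S59, WITHOUT HYPOTHESES.**  The last leaf
[TOR-SURJ] (Sink B, `q` odd; owner helper15) in the COMMON-LEVEL form `m59g12u_TorSurjPlU_stmt`
(helper29, `M59/SinkB/G12/WireCU.lean`) is closed: level `N'q`: count, hcard/hmass (helper6),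
[LSTAR] (helper29), Defs1/[NU0]/[DELTA0]/NF1 (helper7 + helper4 + helper19 + helper20), (ex1)
(helper5), [DICT1] (helper2 + helper29), [TAU-INV] (helper24 + helper16 + helper4), (inj1) (helper6);
level `N'q²` = `m59tf_Cells2_stmt`: Defs2/[GLUE2] (helper3), (pull) (helper29 + helper1 + helper28 +
helper11 + helper4), (inj2) (helper6 + helper3 + helper8), (ex2) (helper23 + helper1 + helper2 +
helper7 + helper10), [TAU-INV2] `m59tx2p_tauInv2` (helper5, on helper7's LabConj2AB, helper16's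
RatioConjLeg2, helper2's TauBack2, helper24's Tau*), closers `m59tf_cells2_of_tauInv2` (helper15);
referee helper27.  Engine = `m59e_engZS_of` (coefficient ring with `ζ_p`); [LOW-core] by
`m59t_lowCore_of`.
-/

set_option autoImplicit false

open WeierstrassCurve WeierstrassCurve.Affine WeierstrassCurve.Affine.Point IsLocalRing

namespace Fermat.Agent.M59

/-- **[LOW-core] from the cells of Sink A and [MAZUR]** (`m59sa_lowCore_of` with its hypothesis
`m59e_LowerQ_stmt` weakened to `m59m_Mazur_stmt`: at odd `N` the detour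
`N → 2N → 2N/p → N/p` removes `q = 2`, and `2` is never hard). -/
theorem m59t_lowCore_of (Peu : m59e_PeuPred) (hEn : m59e_Entry_stmt)
    (hX : m59sa_ExitRes_stmt) (hB : m59sa_BLR_stmt) (hG : m59sa_GeoLow_stmt)
    (hD : m59sa_PeuDict_stmt Peu) (hI : m59e_IrrW_stmt) (hU : m59sa_UnrOdd_stmt)
    (hMz : m59m_Mazur_stmt) : m59e_LowCore_stmt Peu := by
  intro p _ hp W hΔ hW 𝒪 _ _ _ _ _ _ hp𝒪 ρ hT S N hS h2S hsq hNS hpN hPeu hocc
  have hpp : p.Prime := Fact.out
  have hp2 : p ≠ 2 := by rcases hp with rfl | rfl <;> norm_num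
  by_cases h2N : 2 ∣ N
  · exact m59sa_lowCore_even Peu hEn hX hB hG hD hI p hp W hΔ hW 𝒪 hp𝒪 ρ hT S N hS hsq hNS h2N
      hpN hPeu hocc
  · -- the odd case
    have hNpos : 0 < N := Nat.pos_of_ne_zero hsq.ne_zero
    have hcop : Nat.Coprime N 2 :=
      Nat.coprime_comm.mp ((Nat.Prime.coprime_iff_not_dvd Nat.prime_two).mpr h2N)
    have hsq2 : Squarefree (N * 2) := by
      rw [Nat.squarefree_mul_iff]
      exact ⟨hcop, hsq, Nat.prime_two.prime.squarefree⟩
    have hNS2 : ∀ ℓ : ℕ, ℓ.Prime → ℓ ∣ N * 2 → ℓ ∈ S := by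
      intro ℓ hℓ hd
      rcases (Nat.Prime.dvd_mul hℓ).mp hd with h | h
      · exact hNS ℓ hℓ h
      · rw [(Nat.prime_dvd_prime_iff_eq hℓ Nat.prime_two).mp h]; exact h2S
    have hocc2 : m59e_Occ p W S (N * 2) :=
      m59e_occ_mono p W S (dvd_mul_right N 2) (by positivity) hNS2 hocc
    have hocc3 : m59e_Occ p W S (N * 2 / p) :=
      m59sa_lowCore_even Peu hEn hX hB hG hD hI p hp W hΔ hW 𝒪 hp𝒪 ρ hT S (N * 2) hS hsq2 hNS2
        (dvd_mul_left 2 N) (dvd_mul_of_dvd_left hpN 2) hPeu hocc2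
    have hunr : ρ.residual.IsUnramifiedAt 2 :=
      hU p hp W hΔ hW 𝒪 hp𝒪 ρ hT S N 2 hS hsq hNS Nat.prime_two (Ne.symm hp2) h2N hocc
    have hdiv : N * 2 / p = N / p * 2 := by
      rw [mul_comm N 2, Nat.mul_div_assoc 2 hpN, mul_comm]
    obtain ⟨-, -, hsq', hpM', -⟩ := m59sa_level_arith hpp hp2 hsq2 (dvd_mul_of_dvd_left hpN 2)
    have hocc4 : m59e_Occ p W S (N * 2 / p / 2) :=
      hMz p hp W hΔ hW 𝒪 hp𝒪 ρ hT S (N * 2 / p) 2 hS h2S hsq'
        (fun ℓ hℓ hd => hNS2 ℓ hℓ (dvd_trans hd (Nat.div_dvd_of_dvd (dvd_mul_of_dvd_left hpN 2))))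
        Nat.prime_two (Ne.symm hp2) (by rw [hdiv]; exact dvd_mul_left 2 _)
        (fun _ => hpM') hunr (fun hh => m59m_hard_ne_two hp hh rfl) hocc3
    have hfin : N * 2 / p / 2 = N / p := by
      rw [hdiv]; exact Nat.mul_div_cancel _ (by norm_num)
    rwa [hfin] at hocc4

/-- **The frozen S59 from the current leaf seams** (kept for the record: issue 14, one leaf). -/
theorem m59t_final_of
    -- Sink B (`q` odd)
    (hC2 : m59tf_Cells2_stmt)
    (p : ℕ) (hp : p = 3 ∨ p = 5)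
    (W : WeierstrassCurve ℤ) (hΔ : W.Δ ≠ 0) (hW : W.IsSemistableModel)
    (hirr : W.ModRepIsIrreducible p)
    (M₀ : ℕ) [NeZero M₀] (hres₀ : W.IsResiduallyModularOfLevel p M₀)
    (hM₀ : ¬ p ^ 2 ∣ M₀)
    (hM₀3 : ∀ q : ℕ, q.Prime → q ≠ p → ¬ q ^ 3 ∣ M₀) :
    Mlc1IsModularModelOfExactConductorLevel W := by
  -- Sink B
  have hE2o : m59t_Eq2Odd_stmt :=
    m59g12u_eq2odd_of_leavesU m59ei_eis_stmt m59dlw_deltaC2 (m59tf_torSurjPlU_of_cells2 hC2)
  have hE2t : m59t_Eq2Two_stmt := m59sb_eq2two_of_at m59e3_eq2two3 m59e5_main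
  -- Sink A
  have hA : m59t_LowerP_stmt := m59sa_lowerP
  -- [MAZUR]
  have hMz : m59m_Mazur_stmt := m59h3c_mazur
  -- [LOW-core]
  have hLC : m59e_LowCore_stmt m59rp_Peu :=
    m59t_lowCore_of m59rp_Peu m59io_entry m59lg_exitRes m59sa_blr m59sa_geoLow m59kc_peuDict_rp
      m59lg_irrW m59lg_unrOdd hMz
  -- [HARD]
  have hHard : m59m_Hard_stmt :=
    m59mo_hard_of5 m59rp_Peu hLC m59kc_tresDict_rp m59moc_patchLv_closed m59mz_geoPowThreeEven hMz
      m59lg_entryExt
  have hLQ : m59e_LowerQ_stmt := m59m_lowerQ_of hMz hHard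
  -- [CORE]
  have hCore : m59e_CoreZS_stmt m59rp_Peu :=
    m59e_coreZS_of m59rp_Peu
      (m59ci_chainInputS_of m59rp_Peu m59ci_level_rp m59ci_caseIII_rp)
  have hEng : m59t_Eng_stmt :=
    m59e_engZS_of m59rp_Peu m59io_entry m59gd_G5zS hLQ hLC hCore m59io_exit0
  exact m59t_result_of4 hE2o hE2t hA hEng p hp W hΔ hW hirr M₀ hres₀ hM₀ hM₀3

/-- **THE FROZEN S59** (`WeierstrassCurve.FermatFrozen.S59`), without hypotheses. -/
theorem m59t_final
    (p : ℕ) (hp : p = 3 ∨ p = 5)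
    (W : WeierstrassCurve ℤ) (hΔ : W.Δ ≠ 0) (hW : W.IsSemistableModel)
    (hirr : W.ModRepIsIrreducible p)
    (M₀ : ℕ) [NeZero M₀] (hres₀ : W.IsResiduallyModularOfLevel p M₀)
    (hM₀ : ¬ p ^ 2 ∣ M₀)
    (hM₀3 : ∀ q : ℕ, q.Prime → q ≠ p → ¬ q ^ 3 ∣ M₀) :
    Mlc1IsModularModelOfExactConductorLevel W :=
  m59t_final_of (m59tf_cells2_of_tauInv2 m59tx2p_tauInv2) p hp W hΔ hW hirr M₀ hres₀ hM₀ hM₀3

end Fermat.Agent.M59
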